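import Fermat.Agent.CFT.Euler.Defs

/-!
Invariance of an additive invariant of the module of homomorphisms out of a lattice under
equivariant isogenies.
-/

set_option autoImplicit false

noncomputable section

namespace Fermat.Agent.CFT.Euler

variable {G : Type} [Group G] {p : ℕ} {ψ : ModInvariant G p}

section Basic

variable {A B : Type} [AddCommGroup A] [DistribMulAction G A] [Finite A]
  [AddCommGroup B] [DistribMulAction G B] [Finite B]

/-- An additive invariant vanishes on the zero module. -/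
theorem psi_subsingleton (hadd : IsAdditive ψ) [Subsingleton A] (hA : ∀ a : A, p • a = 0) :
    ψ A hA = 0 := by
  have := hadd A A A hA hA hA (AddMonoidHom.id A) (AddMonoidHom.id A) (fun _ _ => rfl)
    (fun _ _ => rfl) Function.injective_id
    (fun b => ⟨fun _ => ⟨b, rfl⟩, fun _ => Subsingleton.elim _ _⟩) Function.surjective_id
  omega

/-- An additive invariant takes the same value on equivariantly isomorphic modules. -/
theorem psi_congr (hadd : IsAdditive ψ) (hA : ∀ a : A, p • a = 0) (hB : ∀ b : B, p • b = 0)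
    (e : A →+ B) (hinj : Function.Injective e) (hsurj : Function.Surjective e)
    (he : ∀ (s : G) (a : A), e (s • a) = s • e a) : ψ A hA = ψ B hB := by
  let : DistribMulAction G (⊥ : AddSubgroup A) :=
    { smul := fun _ x => x
      one_smul := fun _ => rfl
      mul_smul := fun _ _ _ => rfl
      smul_zero := fun _ => rfl
      smul_add := fun _ _ _ => rfl }
  have hz : ∀ z : (⊥ : AddSubgroup A), p • z = 0 := fun z => Subsingleton.elim _ _
  have := hadd (⊥ : AddSubgroup A) A B hz hA hB (AddSubgroup.subtype ⊥) e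
    (fun s z => by
      rw [Subsingleton.elim (s • z) 0, Subsingleton.elim z 0, map_zero, smul_zero])
    he Subtype.val_injective
    (fun a => ⟨fun h => ⟨0, by rw [map_zero, (map_eq_zero_iff e hinj).mp h]⟩, by
      rintro ⟨z, rfl⟩; rw [Subsingleton.elim z 0, map_zero, map_zero]⟩) hsurj
  rw [psi_subsingleton hadd hz, zero_add] at this
  exact this

end Basic

section Sub

variable {A : Type} [AddCommGroup A] [DistribMulAction G A]

/-- The action on a stable subgroup. -/
@[reducible] def subAction (S : AddSubgroup A) (hS : ∀ (s : G), ∀ a ∈ S, s • a ∈ S) :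
    DistribMulAction G S where
  smul s a := ⟨s • (a : A), hS s _ a.2⟩
  one_smul a := Subtype.ext (one_smul G (a : A))
  mul_smul s t a := Subtype.ext (mul_smul s t (a : A))
  smul_zero s := Subtype.ext (smul_zero s)
  smul_add s a b := Subtype.ext (smul_add s (a : A) (b : A))

theorem nsmul_sub_eq_zero (hA : ∀ a : A, p • a = 0) (S : AddSubgroup A) (a : S) : p • a = 0 :=
  Subtype.ext (by rw [AddSubgroupClass.coe_nsmul]; exact hA a)

/-- The invariant of a stable subgroup. -/
def psiSub [Finite A] (ψ : ModInvariant G p) (hA : ∀ a : A, p • a = 0) (S : AddSubgroup A)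
    (hS : ∀ (s : G), ∀ a ∈ S, s • a ∈ S) : ℤ :=
  letI := subAction S hS
  ψ S (nsmul_sub_eq_zero hA S)

theorem psiSub_congr [Finite A] (hA : ∀ a : A, p • a = 0) {S T : AddSubgroup A} (h : S = T)
    (hS : ∀ (s : G), ∀ a ∈ S, s • a ∈ S) (hT : ∀ (s : G), ∀ a ∈ T, s • a ∈ T) :
    psiSub ψ hA S hS = psiSub ψ hA T hT := by
  subst h; rfl

variable {B : Type} [AddCommGroup B] [DistribMulAction G B] {f : A →+ B}

theorem ker_stable (hf : ∀ (s : G) (a : A), f (s • a) = s • f a) (s : G) :
    ∀ a ∈ f.ker, s • a ∈ f.ker := fun a ha => by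
  rw [AddMonoidHom.mem_ker] at ha ⊢
  rw [hf, ha, smul_zero]

theorem range_stable (hf : ∀ (s : G) (a : A), f (s • a) = s • f a) (s : G) :
    ∀ b ∈ f.range, s • b ∈ f.range := by
  rintro _ ⟨a, rfl⟩
  exact ⟨s • a, hf s a⟩

theorem psi_ker_range [Finite A] [Finite B] (hadd : IsAdditive ψ) (hA : ∀ a : A, p • a = 0)
    (hB : ∀ b : B, p • b = 0) (hf : ∀ (s : G) (a : A), f (s • a) = s • f a) :
    ψ A hA = psiSub ψ hA f.ker (ker_stable hf) + psiSub ψ hB f.range (range_stable hf) := by
  let := subAction f.ker (ker_stable hf)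
  let := subAction f.range (range_stable hf)
  exact hadd f.ker A f.range _ hA _ f.ker.subtype f.rangeRestrict (fun _ _ => rfl)
    (fun s a => Subtype.ext (hf s a)) Subtype.val_injective
    (fun a => ⟨fun h => ⟨⟨a, congrArg Subtype.val h⟩, rfl⟩, by
      rintro ⟨k, rfl⟩; exact Subtype.ext k.2⟩) f.rangeRestrict_surjective

end Sub

/-- Homomorphisms out of a lattice, with the conjugation action. -/
def HomMod (L A : Type) [AddCommGroup L] [AddCommGroup A] : Type := L →+ A

namespace HomMod

variable {L L' A : Type} [AddCommGroup L] [AddCommGroup L'] [AddCommGroup A]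

instance : AddCommGroup (HomMod L A) := inferInstanceAs (AddCommGroup (L →+ A))

/-- Underlying homomorphism. -/
def toHom (φ : HomMod L A) : L →+ A := φ

@[ext] theorem ext {φ χ : HomMod L A} (h : ∀ x, φ.toHom x = χ.toHom x) : φ = χ :=
  AddMonoidHom.ext h

/-- The maps out of a lattice into a module killed by `p` are killed by `p`. -/
theorem nsmul_eq_zero (hA : ∀ a : A, p • a = 0) (φ : HomMod L A) : p • φ = 0 := by
  ext x; exact hA _

instance [Module.Finite ℤ L] [Finite A] : Finite (HomMod L A) := by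
  obtain ⟨s, hs⟩ := Module.Finite.fg_top (R := ℤ) (M := L)
  refine Finite.of_injective (fun (φ : HomMod L A) (x : s) => φ.toHom x) fun φ χ h => ?_
  exact congrArg (fun f : L →ₗ[ℤ] A => f.toAddMonoidHom)
    (LinearMap.ext_on hs (f := φ.toHom.toIntLinearMap) (g := χ.toHom.toIntLinearMap)
      fun x hx => congrFun h ⟨x, hx⟩)

variable [DistribMulAction G L] [DistribMulAction G L'] [DistribMulAction G A]

instance : DistribMulAction G (HomMod L A) where
  smul s φ := ((DistribSMul.toAddMonoidHom A s).comp φ.toHom).comp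
    (DistribSMul.toAddMonoidHom L s⁻¹)
  one_smul φ := by
    ext x
    show (1 : G) • φ.toHom ((1 : G)⁻¹ • x) = φ.toHom x
    simp
  mul_smul s t φ := by
    ext x
    show (s * t) • φ.toHom ((s * t)⁻¹ • x) = s • t • φ.toHom (t⁻¹ • s⁻¹ • x)
    simp [mul_smul]
  smul_zero s := by
    ext x
    exact smul_zero s
  smul_add s φ χ := by
    ext x
    exact smul_add s _ _

theorem smul_apply (s : G) (φ : HomMod L A) (x : L) :
    (s • φ).toHom x = s • φ.toHom (s⁻¹ • x) := rfl

/-- Restriction along a homomorphism. -/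
def pull (u : L' →+ L) : HomMod L A →+ HomMod L' A :=
  AddMonoidHom.mk' (fun φ => φ.toHom.comp u) fun _ _ => rfl

theorem pull_apply (u : L' →+ L) (φ : HomMod L A) (x : L') :
    (pull u φ).toHom x = φ.toHom (u x) := rfl

theorem pull_smul (u : L' →+ L) (hu : ∀ (s : G) (x : L'), u (s • x) = s • u x) (s : G)
    (φ : HomMod L A) : pull u (s • φ) = s • pull u φ := by
  ext x
  rw [pull_apply, smul_apply, smul_apply, pull_apply, hu]

end HomMod

theorem exists_extend_of_module (p : ℕ) [Fact p.Prime] {V A : Type} [AddCommGroup V]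
    [AddCommGroup A] [Module (ZMod p) V] [Module (ZMod p) A] (S : AddSubgroup V) (f : S →+ A) :
    ∃ χ : V →+ A, ∀ x : S, χ x = f x := by
  obtain ⟨χ, hχ⟩ := LinearMap.exists_extend (p := AddSubgroup.toZModSubmodule p S)
    (AddMonoidHom.toZModLinearMap p (f : (AddSubgroup.toZModSubmodule p S) →+ A))
  exact ⟨χ.toAddMonoidHom, fun x => LinearMap.congr_fun hχ ⟨x, x.2⟩⟩

/-- A partial homomorphism to a vector space killed by `p`, trivial on multiples of `p`, extends. -/
theorem exists_extend_mod_prime [Fact p.Prime] {L A : Type} [AddCommGroup L] [AddCommGroup A]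
    (hA : ∀ a : A, p • a = 0) (S : AddSubgroup L) (φ : S →+ A)
    (h : ∀ (l : L) (hl : p • l ∈ S), φ ⟨p • l, hl⟩ = 0) :
    ∃ χ : L →+ A, ∀ x : S, χ x = φ x := by
  let P : AddSubgroup L := (nsmulAddMonoidHom (α := L) p).range
  have hQ : ∀ q : L ⧸ P, p • q = 0 := fun q => by
    obtain ⟨x, rfl⟩ := QuotientAddGroup.mk_surjective q
    rw [← QuotientAddGroup.mk_nsmul, QuotientAddGroup.eq_zero_iff]
    exact ⟨x, rfl⟩
  let : Module (ZMod p) (L ⧸ P) := AddCommGroup.zmodModule hQ
  let : Module (ZMod p) A := AddCommGroup.zmodModule hA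
  let π := QuotientAddGroup.mk' P
  let S' : AddSubgroup (L ⧸ P) := S.map π
  have hmem : ∀ z : S', ∃ x : S, π x = z := fun z => by
    obtain ⟨x, hx, e⟩ := z.2
    exact ⟨⟨x, hx⟩, e⟩
  choose r hr using hmem
  have key : ∀ x y : S, π x = π y → φ x = φ y := fun x y e => by
    have : π ((x : L) - y) = 0 := by rw [map_sub, e, sub_self]
    obtain ⟨l, hl⟩ := (QuotientAddGroup.eq_zero_iff _).mp this
    rw [nsmulAddMonoidHom_apply] at hl
    have h2 := h l (hl ▸ (x - y).2)
    rw [← sub_eq_zero, ← map_sub, ← h2]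
    exact congrArg φ (Subtype.ext hl.symm)
  let ψ₀ : S' →+ A := AddMonoidHom.mk' (fun z => φ (r z)) fun a b => by
    rw [← map_add]
    exact key _ _ (by rw [hr]; simp [hr])
  obtain ⟨χ, hχ⟩ := exists_extend_of_module p S' ψ₀
  refine ⟨χ.comp π, fun x => ?_⟩
  refine (hχ ⟨π x, x, x.2, rfl⟩).trans ?_
  exact key _ _ (hr ⟨π x, x, x.2, rfl⟩)

section Isogeny

variable [Fact p.Prime] (hadd : IsAdditive ψ) {A : Type} [AddCommGroup A] [DistribMulAction G A]
  [Finite A] (hA : ∀ a : A, p • a = 0)

include hadd in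
/-- An isogeny with cokernel killed by `p` preserves the invariant. -/
theorem psi_homMod_step {L L' : Type} [AddCommGroup L] [AddCommGroup L'] [Module.Finite ℤ L]
    [Module.Finite ℤ L'] [DistribMulAction G L] [DistribMulAction G L'] (u : L' →+ L)
    (hu : ∀ (s : G) (x : L'), u (s • x) = s • u x) (hinj : Function.Injective u)
    (hp : ∀ x : L, p • x ∈ u.range) (htf : ∀ x : L, p • x = 0 → x = 0) :
    ψ (HomMod L A) (HomMod.nsmul_eq_zero hA) = ψ (HomMod L' A) (HomMod.nsmul_eq_zero hA) := by
  choose d hd using hp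
  have hdadd : ∀ x y, d (x + y) = d x + d y := fun x y =>
    hinj (by rw [map_add, hd, hd, hd, nsmul_add])
  have hdsmul : ∀ (s : G) (x : L), d (s • x) = s • d x := fun s x =>
    hinj (by rw [hu, hd, hd]; exact (smul_comm s p x).symm)
  have hdu : ∀ x : L', d (u x) = p • x := fun x => hinj (by rw [hd, map_nsmul])
  -- `d = u⁻¹ ∘ p` runs back; compare pulling back along `u` and along `d`.
  let r : HomMod L A →+ HomMod L' A := HomMod.pull u
  let δ : HomMod L' A →+ HomMod L A :=
    AddMonoidHom.mk' (fun φ => φ.toHom.comp (AddMonoidHom.mk' d hdadd)) fun _ _ => rfl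
  have hr : ∀ (s : G) (φ : HomMod L A), r (s • φ) = s • r φ := HomMod.pull_smul u hu
  have hδ : ∀ (s : G) (φ : HomMod L' A), δ (s • φ) = s • δ φ := fun s φ => by
    ext x
    show (s • φ).toHom (d x) = s • φ.toHom (d (s⁻¹ • x))
    rw [HomMod.smul_apply, hdsmul]
  rw [psi_ker_range hadd (HomMod.nsmul_eq_zero hA) (HomMod.nsmul_eq_zero hA) hr,
    psi_ker_range hadd (HomMod.nsmul_eq_zero hA) (HomMod.nsmul_eq_zero hA) hδ, add_comm]
  -- Each range is the kernel of the other map, since maps to `A` killing `p L` extend.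
  have e1 : r.range = δ.ker := by
    refine le_antisymm ?_ fun φ hφ => ?_
    · rintro _ ⟨φ, rfl⟩
      ext x
      show φ.toHom (u (d x)) = 0
      rw [hd, map_nsmul, hA]
    · have hφ' : ∀ x, φ.toHom (d x) = 0 := fun x => congrArg (fun f : HomMod _ A => f.toHom x) hφ
      choose w hw using fun z : u.range => z.2
      obtain ⟨χ, hχ⟩ := exists_extend_mod_prime hA u.range
        (AddMonoidHom.mk' (fun z => φ.toHom (w z)) fun a b => by
          rw [← map_add]
          exact congrArg _ (hinj (by rw [map_add, hw, hw, hw]; rfl)))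
        (fun l hl => by
          refine Eq.trans (congrArg φ.toHom (hinj ?_)) (hφ' l)
          rw [hw, hd])
      exact ⟨χ, by
        ext y
        show χ (u y) = φ.toHom y
        refine (hχ ⟨u y, y, rfl⟩).trans (congrArg φ.toHom (hinj ?_))
        rw [hw]⟩
  have e2 : δ.range = r.ker := by
    refine le_antisymm ?_ fun φ hφ => ?_
    · rintro _ ⟨φ, rfl⟩
      ext x
      show φ.toHom (d (u x)) = 0
      rw [hdu, map_nsmul, hA]
    · have hφ' : ∀ x, φ.toHom (u x) = 0 := fun x => congrArg (fun f : HomMod _ A => f.toHom x) hφ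
      let dh : L →+ L' := AddMonoidHom.mk' d hdadd
      have dinj : ∀ a b, d a = d b → a = b := fun a b e => by
        refine sub_eq_zero.mp (htf _ ?_)
        rw [← hd, show d (a - b) = 0 by
          rw [show d (a - b) = d a - d b from map_sub dh a b, e, sub_self], map_zero]
      choose w hw using fun z : dh.range => z.2
      obtain ⟨χ, hχ⟩ := exists_extend_mod_prime hA dh.range
        (AddMonoidHom.mk' (fun z => φ.toHom (w z)) fun a b => by
          rw [← map_add]
          refine congrArg _ (dinj _ _ ?_)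
          show dh _ = dh _
          rw [map_add, hw, hw, hw]; rfl)
        (fun l hl => by
          refine Eq.trans (congrArg φ.toHom (dinj _ _ ?_)) (hφ' l)
          show dh _ = d (u l)
          rw [hw, hdu])
      exact ⟨χ, by
        ext y
        show χ (d y) = φ.toHom y
        refine (hχ ⟨d y, y, rfl⟩).trans (congrArg φ.toHom (dinj _ _ ?_))
        show dh _ = _
        rw [hw]⟩
  rw [psiSub_congr _ e1 _ (ker_stable hδ), psiSub_congr _ e2 _ (ker_stable hr)]

include hadd in
theorem psi_homMod_coprime {L L' : Type} [AddCommGroup L] [AddCommGroup L'] [Module.Finite ℤ L]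
    [Module.Finite ℤ L'] [DistribMulAction G L] [DistribMulAction G L'] (u : L' →+ L)
    (hu : ∀ (s : G) (x : L'), u (s • x) = s • u x) (hinj : Function.Injective u) {m : ℕ}
    (hm : ¬ p ∣ m) (hp : ∀ x : L, m • x ∈ u.range) :
    ψ (HomMod L A) (HomMod.nsmul_eq_zero hA) = ψ (HomMod L' A) (HomMod.nsmul_eq_zero hA) := by
  obtain ⟨k, hk⟩ := Nat.exists_mul_mod_eq_one_of_coprime
    ((Nat.Prime.coprime_iff_not_dvd Fact.out).mpr hm).symm (Fact.out : p.Prime).one_lt
  have hkm : ∀ a : A, k • m • a = a := fun a => by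
    conv_rhs => rw [← one_nsmul a, ← hk.2]
    rw [← mul_nsmul', mul_comm k m]
    conv_lhs => rw [← Nat.mod_add_div (m * k) p, add_nsmul, mul_nsmul, hA, nsmul_zero, add_zero]
  choose d hd using hp
  have hdadd : ∀ x y, d (x + y) = d x + d y := fun x y =>
    hinj (by rw [map_add, hd, hd, hd, nsmul_add])
  refine psi_congr hadd _ _ (HomMod.pull u) ?_ ?_ (HomMod.pull_smul u hu)
  · intro φ χ h
    ext x
    have := congrArg (fun f : HomMod L' A => k • f.toHom (d x)) h
    simp only [HomMod.pull_apply, hd, map_nsmul, hkm] at this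
    exact this
  · intro φ
    refine ⟨k • (φ.toHom.comp (AddMonoidHom.mk' d hdadd) : L →+ A), ?_⟩
    ext y
    show k • φ.toHom (d (u y)) = φ.toHom y
    rw [show d (u y) = m • y from hinj (by rw [hd, map_nsmul]), map_nsmul, hkm]

include hadd in
/-- An equivariant isogeny preserves the invariant. -/
theorem psi_homMod_isogeny {L L' : Type} [AddCommGroup L] [AddCommGroup L'] [Module.Finite ℤ L]
    [Module.Finite ℤ L'] [DistribMulAction G L] [DistribMulAction G L'] (u : L' →+ L)
    (hu : ∀ (s : G) (x : L'), u (s • x) = s • u x) (hinj : Function.Injective u)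
    (htf : ∀ x : L, p • x = 0 → x = 0) {m : ℕ} (hm : m ≠ 0) (hp : ∀ x : L, m • x ∈ u.range) :
    ψ (HomMod L A) (HomMod.nsmul_eq_zero hA) = ψ (HomMod L' A) (HomMod.nsmul_eq_zero hA) := by
  obtain ⟨k, m, hm', rfl⟩ := Nat.exists_eq_pow_mul_and_not_dvd hm p (Fact.out : p.Prime).ne_one
  induction k generalizing L with
  | zero => exact psi_homMod_coprime hadd hA u hu hinj hm' (by simpa using hp)
  | succ k ih =>
    let S : AddSubgroup L := u.range ⊔ (nsmulAddMonoidHom (α := L) p).range
    have hS : ∀ (s : G), ∀ x ∈ S, s • x ∈ S := by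
      intro s x hx
      obtain ⟨_, ⟨a, rfl⟩, _, ⟨b, rfl⟩, rfl⟩ := AddSubgroup.mem_sup.mp hx
      rw [smul_add]
      exact add_mem (AddSubgroup.mem_sup_left ⟨s • a, hu s a⟩)
        (AddSubgroup.mem_sup_right ⟨s • b, (smul_comm s p b).symm⟩)
    let := subAction S hS
    have : Module.Finite ℤ S :=
      Module.Finite.of_fg (IsNoetherian.noetherian (AddSubgroup.toIntSubmodule S))
    have h1 := psi_homMod_step hadd hA (L := L) (L' := S) S.subtype (fun _ _ => rfl)
      Subtype.val_injective (fun x => ⟨⟨p • x, AddSubgroup.mem_sup_right ⟨x, rfl⟩⟩, rfl⟩) htf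
    rw [h1]
    refine ih (u.codRestrict S fun a => AddSubgroup.mem_sup_left ⟨a, rfl⟩)
      (fun s a => Subtype.ext (hu s a)) (fun a b e => hinj (congrArg Subtype.val e))
      (fun x hx => Subtype.ext (htf x (congrArg Subtype.val hx)))
      (mul_ne_zero (pow_ne_zero _ (Fact.out : p.Prime).ne_zero) (by rintro rfl; simp at hm'))
      fun x => ?_
    obtain ⟨_, ⟨a, rfl⟩, _, ⟨b, rfl⟩, hab⟩ := AddSubgroup.mem_sup.mp x.2
    obtain ⟨c, hc⟩ := hp b
    refine ⟨(p ^ k * m) • a + c, Subtype.ext ?_⟩
    show u _ = (((p ^ k * m) • x : S) : L)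
    rw [AddSubgroupClass.coe_nsmul, ← hab, map_add, map_nsmul, hc, nsmul_add,
      nsmulAddMonoidHom_apply, ← mul_nsmul', show p ^ k * m * p = p ^ (k + 1) * m by ring]

end Isogeny

end Fermat.Agent.CFT.Euler
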