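import Fermat.Agent.CFT.Euler.Lattices

/-!
# The Euler index of a splitting module

The Euler index of a splitting module against that of the class formation module.

The comparisons are `index_split_eq`, `index_split_le` and `index_split_of_fixPts_eq_bot`.
-/

set_option autoImplicit false

noncomputable section

namespace Fermat.Agent.CFT.Euler

open Fermat.Agent.CFT

variable (G : Type) [Group G] (A : Type) [AddCommGroup A] [DistribMulAction G A]

/-! ### Invariants and functionals -/

/-- The invariant elements. -/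
def fixPts : AddSubgroup A where
  carrier := {a | ∀ g : G, g • a = a}
  add_mem' {a b} ha hb g := by
    show g • (a + b) = a + b
    rw [smul_add, ha g, hb g]
  zero_mem' g := smul_zero g
  neg_mem' {a} ha g := by
    show g • -a = -a
    rw [smul_neg, ha g]

variable {G A} {p : ℕ} [hp : Fact p.Prime]

/-- The dual of a finite group is finite. -/
theorem finite_dual [Finite A] : Finite (A →+ ZMod p) :=
  Finite.of_injective (fun f : A →+ ZMod p => fun a => f a) fun _ _ h =>
    AddMonoidHom.ext (congrFun h)

theorem card_linear_dual [Finite A] [Module (ZMod p) A] :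
    Nat.card (A →ₗ[ZMod p] ZMod p) = Nat.card A := by
  rw [Module.natCard_eq_pow_finrank (K := ZMod p),
    Module.natCard_eq_pow_finrank (K := ZMod p) (V := A)]
  exact congrArg _ Subspace.dual_finrank_eq

/-- A finite module killed by `p` has as many functionals as elements. -/
theorem card_dual [Finite A] (hA : ∀ a : A, p • a = 0) :
    Nat.card (A →+ ZMod p) = Nat.card A := by
  let : Module (ZMod p) A := AddCommGroup.zmodModule hA
  refine Eq.trans ?_ (card_linear_dual (A := A) (p := p))
  exact Nat.card_congr ⟨fun f => AddMonoidHom.toZModLinearMap p f, fun f => f.toAddMonoidHom,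
    fun _ => rfl, fun _ => rfl⟩

variable [Fintype G] {C : Type} [AddCommGroup C] [DistribMulAction G C] {u : NormCocycle G C}
  (X : Pres p G A)

/-! ### The connecting functional -/

/-- The connecting functional of an equivariant homomorphism into a splitting module. -/
def splitFun (f : equivHom (C := Split u) X.hS) : A →+ ZMod p :=
  AddMonoidHom.liftOfSurjective X.π X.surj
    ⟨(((Int.castAddHom (ZMod p)).comp (Split.coord 1)).comp f.1).comp
      ((mulP X.level).comp X.K.subtype), fun x hx => by
      show ((Split.coord 1 (f.1 ⟨p • (x : X.P), _⟩) : ℤ) : ZMod p) = 0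
      rw [show (⟨p • (x : X.P), _⟩ : X.S) = p • ⟨x, (X.ker x).mp hx⟩ from rfl, map_nsmul,
        map_nsmul, nsmul_eq_mul, Int.cast_mul, Int.cast_natCast, ZMod.natCast_self, zero_mul]⟩

theorem splitFun_apply (f : equivHom (C := Split u) X.hS) (x : X.K) :
    splitFun X f (X.π x) = (Split.coord 1 (f.1 (mulP X.level (x : X.P))) : ZMod p) :=
  AddMonoidHom.liftOfRightInverse_comp_apply X.π _ _
    (⟨_, _⟩ : { g : X.K →+ ZMod p // X.π.ker ≤ g.ker }) x

/-- The connecting functional, as a homomorphism. -/
def splitHom : equivHom (C := Split u) X.hS →+ (A →+ ZMod p) :=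
  AddMonoidHom.mk' (splitFun X) fun f f' => AddMonoidHom.ext fun a => by
    obtain ⟨x, rfl⟩ := X.surj a
    show splitFun X (f + f') (X.π x) = splitFun X f (X.π x) + splitFun X f' (X.π x)
    rw [splitFun_apply, splitFun_apply, splitFun_apply, ← Int.cast_add, ← map_add]
    rfl

/-- The inclusion of `C` into the splitting module is equivariant. -/
private theorem inl_smul (g : G) (c : C) : Split.inl (u := u) (g • c) = g • Split.inl c :=
  (Split.smul_inl g c).symm

/-- `C` embeds into the splitting module. -/
private theorem inl_injective : Function.Injective (Split.inl (u := u)) :=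
  fun _ _ h => congrArg Split.fstHom h

/-- If the coordinates of an equivariant map on `K` vanish on `S`, they vanish on `K`, and the map
comes from `C`. -/
private theorem exists_inl_eq_of_coord_res (g : equivHom (C := Split u) X.hK)
    (hg : ∀ (s : X.S) (z : G), Split.coord z (g.1 (AddSubgroup.inclusion X.le s)) = 0) :
    ∃ g₀ : equivHom (C := C) X.hK, postHom X.hK Split.inl inl_smul g₀ = g := by
  refine exists_postHom_eq X.hK Split.inl inl_smul inl_injective g fun x =>
    ⟨_, (Split.eq_inl_of_coord _ fun z => ?_).symm⟩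
  -- `p • x` lies in `S` and the coordinates are integers
  have h := hg ⟨p • (x : X.P), X.level x⟩ z
  rw [show AddSubgroup.inclusion X.le ⟨p • (x : X.P), X.level x⟩ = p • x from rfl, map_nsmul,
    map_nsmul, nsmul_eq_mul] at h
  exact (mul_eq_zero.mp h).resolve_left (Nat.cast_ne_zero.mpr hp.out.ne_zero)

/-- The two restriction maps have kernels of the same size. -/
private theorem card_ker_res_split :
    Nat.card (X.res (Split u)).ker = Nat.card (X.res C).ker := by
  refine (Nat.card_congr (Equiv.ofBijective
    (fun f : (X.res C).ker => (⟨postHom X.hK Split.inl inl_smul f.1, by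
      refine (resHom_eq_zero_iff X.hK X.hS X.le _).mpr fun x hx => ?_
      rw [postHom_apply, (resHom_eq_zero_iff X.hK X.hS X.le f.1).mp f.2 x hx, map_zero]⟩ :
        (X.res (Split u)).ker)) ⟨fun f f' h => ?_, fun f => ?_⟩)).symm
  · exact Subtype.ext (postHom_injective _ _ _ inl_injective (congrArg Subtype.val h))
  · obtain ⟨f₀, hf₀⟩ := exists_inl_eq_of_coord_res X f.1 fun s z => by
      rw [(resHom_eq_zero_iff X.hK X.hS X.le f.1).mp f.2 _ s.2, map_zero]
    refine ⟨⟨f₀, (resHom_eq_zero_iff X.hK X.hS X.le _).mpr fun x hx => (inl_injective (u := u)) ?_⟩,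
      Subtype.ext hf₀⟩
    rw [map_zero, ← postHom_apply X.hK (Split.inl (u := u)) inl_smul f₀ x, hf₀]
    exact (resHom_eq_zero_iff X.hK X.hS X.le f.1).mp f.2 x hx

variable (u) in
/-- Equivariant maps on `S` into `C`, seen in the splitting module. -/
private def inlHom : equivHom (C := C) X.hS →+ equivHom (C := Split u) X.hS :=
  postHom X.hS Split.inl inl_smul

/-- A map into `C` extends to `K` if and only if it does so inside the splitting module. -/
private theorem comap_range_res_split :
    (X.res (Split u)).range.comap (inlHom u X) = (X.res C).range := by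
  refine le_antisymm ?_ ?_
  · rintro f ⟨g, hg⟩
    have hgs : ∀ s : X.S, g.1 (AddSubgroup.inclusion X.le s) = Split.inl (f.1 s) := fun s =>
      DFunLike.congr_fun (congrArg Subtype.val hg) s
    obtain ⟨g₀, hg₀⟩ := exists_inl_eq_of_coord_res X g fun s z => by rw [hgs]; rfl
    refine ⟨g₀, Subtype.ext (AddMonoidHom.ext fun s => (inl_injective (u := u)) ?_)⟩
    show Split.inl (g₀.1 _) = Split.inl (f.1 s)
    rw [← postHom_apply X.hK (Split.inl (u := u)) inl_smul g₀, hg₀, hgs]
  · rintro _ ⟨g, rfl⟩
    exact ⟨postHom X.hK Split.inl inl_smul g, rfl⟩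

/-- A map killed by the connecting functional has, on `S`, the coordinates of an equivariant map
on `K`. -/
private theorem exists_coord_res_eq (hfull : ∀ x : X.P, x ∈ X.K)
    {f : equivHom (C := Split u) X.hS} (hf : splitHom X f = 0) :
    ∃ g : equivHom (C := Split u) X.hK, ∀ (s : X.S) (z : G),
      Split.coord z ((f - X.res (Split u) g).1 s) = 0 := by
  -- every coordinate of `f (p • x)` is divisible by `p`, with quotient `w x z`
  have hdvd : ∀ (x : X.K) (z : G),
      (p : ℤ) ∣ Split.coord z (f.1 (mulP X.level (x : X.P))) := fun x z => by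
    have h := DFunLike.congr_fun hf (X.π (smulS X.hK z⁻¹ x))
    change splitFun X f (X.π (smulS X.hK z⁻¹ x)) = 0 at h
    rw [splitFun_apply, coe_smulS, ← smulS_mulP X.hS X.level, f.2, Split.coord_smul, inv_inv,
      mul_one] at h
    exact (ZMod.intCast_zmod_eq_zero_iff_dvd _ _).mp h
  choose w hw using hdvd
  have huniq : ∀ {a b : ℤ}, (p : ℤ) * a = p * b → a = b := fun h =>
    mul_left_cancel₀ (Int.natCast_ne_zero.mpr hp.out.ne_zero) h
  have hwadd : ∀ (z : G) (a b : X.K), w (a + b) z = w a z + w b z := fun z a b =>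
    huniq (by rw [← hw, AddSubgroup.coe_add, map_add, map_add, map_add, hw, hw, mul_add])
  have hwsum : ∀ x : X.K, ∑ z : G, w x z = 0 := fun x => huniq (by
    rw [Finset.mul_sum, mul_zero, ← Split.sum_coord (f.1 (mulP X.level (x : X.P)))]
    exact Finset.sum_congr rfl fun z _ => (hw x z).symm)
  let ω : X.K →+ Split u := AddMonoidHom.mk' (fun x => Split.mk 0 ⟨w x, hwsum x⟩) fun x y =>
    Split.ext (show (0 : C) = 0 + 0 from (add_zero _).symm)
      (Subtype.ext (funext fun z => hwadd z x y))
  -- make it equivariant using that the lattice is induced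
  obtain ⟨T, hT⟩ := X.induced
  let e : X.P →+ X.K := AddMonoidHom.mk' (fun x => ⟨x, hfull x⟩) fun _ _ => rfl
  let g : equivHom (C := Split u) X.hK :=
    ⟨normOn X.hK ((ω.comp (e.comp T)).comp X.K.subtype), isEquivariantOn_normOn _ _⟩
  -- the average still has coordinates `w`
  have hgsnd : ∀ (x : X.K) (z : G), Split.coord z (g.1 x) = w x z := by
    intro x z
    let wz : X.P →+ ℤ := AddMonoidHom.mk' (fun y => w (e y) z) fun a b => hwadd z (e a) (e b)
    show Split.coord z (normOn X.hK _ x) = w x z
    rw [normOn_apply, map_sum]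
    have hterm : ∀ h : G, Split.coord z (h • ((ω.comp (e.comp T)).comp X.K.subtype)
        (smulS X.hK h⁻¹ x)) = wz (h • T (h⁻¹ • (x : X.P))) := fun h => huniq (by
      rw [Split.coord_smul]
      show (p : ℤ) * w (e (T (h⁻¹ • (x : X.P)))) (h⁻¹ * z) =
        p * w (e (h • T (h⁻¹ • (x : X.P)))) z
      rw [← hw, ← hw]
      show _ = Split.coord z (f.1 (mulP X.level (h • T (h⁻¹ • (x : X.P)))))
      rw [← smulS_mulP X.hS X.level, f.2, Split.coord_smul]
      rfl)
    rw [Finset.sum_congr rfl fun h _ => hterm h, ← map_sum, hT]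
    rfl
  refine ⟨g, fun s z => ?_⟩
  show Split.coord z (f.1 s - g.1 (AddSubgroup.inclusion X.le s)) = 0
  rw [map_sub, hgsnd, sub_eq_zero]
  refine huniq ?_
  rw [← hw, show mulP X.level ((AddSubgroup.inclusion X.le s : X.K) : X.P) = p • s from
    mulP_coe X.level s, map_nsmul, map_nsmul, nsmul_eq_mul]

/-- The connecting map kills exactly the maps from `K` and the maps into `C`. -/
private theorem ker_splitHom (hfull : ∀ x : X.P, x ∈ X.K) :
    (splitHom (u := u) X).ker = (X.res (Split u)).range ⊔ (inlHom u X).range := by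
  refine le_antisymm (fun f hf => ?_) (sup_le ?_ ?_)
  · obtain ⟨g, hg⟩ := exists_coord_res_eq X hfull (AddMonoidHom.mem_ker.mp hf)
    obtain ⟨f₀, hf₀⟩ := exists_postHom_eq X.hS Split.inl inl_smul inl_injective
      (f - X.res (Split u) g) fun s => ⟨_, (Split.eq_inl_of_coord _ (hg s)).symm⟩
    exact AddSubgroup.mem_sup.mpr ⟨X.res (Split u) g, ⟨g, rfl⟩, _, ⟨f₀, rfl⟩, by
      rw [show inlHom u X f₀ = _ from hf₀]; abel⟩
  · rintro _ ⟨g, rfl⟩
    refine AddMonoidHom.ext fun a => ?_
    obtain ⟨x, rfl⟩ := X.surj a
    show splitFun X _ (X.π x) = 0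
    rw [splitFun_apply]
    show ((Split.coord 1 (g.1 (p • x)) : ℤ) : ZMod p) = 0
    rw [map_nsmul, map_nsmul, nsmul_eq_mul, Int.cast_mul, Int.cast_natCast, ZMod.natCast_self,
      zero_mul]
  · rintro _ ⟨f, rfl⟩
    refine AddMonoidHom.ext fun a => ?_
    obtain ⟨x, rfl⟩ := X.surj a
    show splitFun X _ (X.π x) = 0
    rw [splitFun_apply]
    show ((Split.coord 1 (Split.inl (f.1 _)) : ℤ) : ZMod p) = 0
    rw [Split.coord_inl, Int.cast_zero]

/-! ### The index -/

/-- The index of the splitting module exceeds that of the class module by the functionals hit by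
the connecting map. -/
theorem index_split_eq [Finite A] (hfull : ∀ x : X.P, x ∈ X.K) (hC : ModPFinite p C) :
    X.index (Split u) = X.index C + lpN p (Nat.card (splitHom (u := u) X).range) := by
  set R := (X.res (Split u)).range with hR
  have heq := ker_splitHom (u := u) X hfull
  have hle : R ≤ (splitHom (u := u) X).ker := heq ▸ le_sup_left
  -- `[ker δ : R]` is the index of the restriction map with values in `C`
  have hrel : R.relIndex (splitHom (u := u) X).ker = (X.res C).range.index := by
    rw [heq, AddSubgroup.relIndex_sup_left, ← AddSubgroup.index_comap, comap_range_res_split]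
  have hidx : R.index = (X.res C).range.index * Nat.card (splitHom (u := u) X).range := by
    rw [← hrel, ← AddSubgroup.index_ker, AddSubgroup.relIndex_mul_index hle]
  have := finite_dual (A := A) (p := p)
  rw [Pres.index, Pres.index, lpIndex, lpIndex, ← hR, hidx, card_ker_res_split,
    lpN_mul p (X.finiteIndexHom hC).index Nat.card_pos.ne']
  ring

/-- The connecting functionals kill invariant elements. -/
theorem splitHom_apply_fixPts (hu : IsClassFormation p u) (f : equivHom (C := Split u) X.hS)
    {a : A} (ha : a ∈ fixPts G A) : splitHom X f a = 0 := by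
  classical
  obtain ⟨x, rfl⟩ := X.surj a
  have hmem : ∀ g : G, g • (x : X.P) - x ∈ X.S := fun g => by
    refine (X.ker (smulS X.hK g x - x)).mp ?_
    rw [map_sub, X.equi, ha g, sub_self]
  set v := f.1 (mulP X.level (x : X.P)) with hv
  -- `g v - v` is `p` times `f` of the coboundary of `x`.
  have hshift : ∀ g : G, g • v - v = p • f.1 ⟨_, hmem g⟩ := fun g => by
    rw [hv, ← f.2, smulS_mulP X.hS X.level, ← map_sub, ← map_sub, ← map_nsmul]
    exact congrArg f.1 (mulP_coe X.level ⟨_, hmem g⟩)
  obtain ⟨P⟩ := Sylow.nonempty (p := p) (G := G)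
  -- On a Sylow subgroup this is a coboundary, so `y = v - p w` is invariant under it.
  obtain ⟨w, hw⟩ := Split.h1Zero hu (P : Subgroup G) P.isPGroup'
    (fun h => f.1 ⟨_, hmem (h : G)⟩) fun h h' => by
      show f.1 _ = (h : G) • f.1 _ + f.1 _
      rw [← f.2, ← map_add]
      refine congrArg f.1 (Subtype.ext ?_)
      show ((h * h' : (P : Subgroup G)) : G) • (x : X.P) - x =
        (h : G) • ((h' : G) • (x : X.P) - x) + ((h : G) • (x : X.P) - x)
      rw [Subgroup.coe_mul, mul_smul, smul_sub]
      abel
  set y := v - p • w with hy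
  have hinv : ∀ h : (P : Subgroup G), (h : G) • y = y := fun h => by
    have h1 := hshift (h : G)
    rw [show f.1 ⟨_, hmem (h : G)⟩ = (h : G) • w - w from (hw h).symm, smul_sub] at h1
    rw [hy, smul_sub, smul_comm (h : G) p w, sub_eq_sub_iff_sub_eq_sub]
    exact h1
  show splitFun X f (X.π x) = 0
  rw [splitFun_apply, ← hv]
  -- All coordinates of `y` are congruent to the first one of `v` and sum to zero.
  have hmod : ∀ z : G, ((Split.coord z y : ℤ) : ZMod p) = (Split.coord 1 v : ZMod p) := by
    intro z
    have h2 : Split.coord 1 (z⁻¹ • v) = Split.coord z v := by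
      rw [Split.coord_smul, inv_inv, mul_one]
    have h3 := congrArg (Split.coord 1) (hshift z⁻¹)
    rw [map_sub, h2, map_nsmul, nsmul_eq_mul, sub_eq_iff_eq_add] at h3
    rw [hy, map_sub, map_nsmul, nsmul_eq_mul, h3]
    simp
  have hsum : ∑ q : G ⧸ (P : Subgroup G), Split.coord q.out⁻¹ y = 0 := by
    have h0 : ∑ z : G, Split.coord z⁻¹ y = 0 :=
      (Fintype.sum_equiv (Equiv.inv G) _ _ fun _ => rfl).trans (Split.sum_coord y)
    rw [sum_coset (P : Subgroup G)] at h0
    have h1 : ∀ (q : G ⧸ (P : Subgroup G)) (h : (P : Subgroup G)),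
        Split.coord (q.out * (h : G))⁻¹ y = Split.coord q.out⁻¹ y := fun q h => by
      conv_rhs => rw [← hinv h, Split.coord_smul, ← mul_inv_rev]
    simp only [h1, Finset.sum_const, Finset.card_univ, nsmul_eq_mul, ← Finset.mul_sum] at h0
    exact (mul_eq_zero.mp h0).resolve_left (Nat.cast_ne_zero.mpr Fintype.card_ne_zero)
  -- The index of the Sylow subgroup is prime to `p`.
  have h4 : ((P : Subgroup G).index : ZMod p) * (Split.coord 1 v : ZMod p) = 0 := by
    have h := congrArg (Int.cast : ℤ → ZMod p) hsum
    rw [Int.cast_sum, Int.cast_zero] at h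
    rw [Finset.sum_congr rfl fun q _ => hmod q.out⁻¹, Finset.sum_const, Finset.card_univ,
      nsmul_eq_mul] at h
    rwa [Subgroup.index, Nat.card_eq_fintype_card]
  exact (mul_eq_zero.mp h4).resolve_left fun h =>
    P.not_dvd_index ((ZMod.natCast_eq_zero_iff _ _).mp h)

/-- Locally: the defect is at most the functionals killing the invariants. -/
theorem index_split_le [Finite A] (hfull : ∀ x : X.P, x ∈ X.K) (hC : ModPFinite p C)
    (hu : IsClassFormation p u) (hA : ∀ a : A, p • a = 0) :
    X.index (Split u) + lpN p (Nat.card (fixPts G A)) ≤ X.index C + lpN p (Nat.card A) := by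
  let : Module (ZMod p) A := AddCommGroup.zmodModule hA
  have := finite_dual (A := A) (p := p)
  let res : (A →+ ZMod p) →+ (fixPts G A →+ ZMod p) :=
    AddMonoidHom.mk' (fun ν => ν.comp (fixPts G A).subtype) fun _ _ => rfl
  have hres : Function.Surjective res := fun ν => by
    obtain ⟨L, hL⟩ := exists_extend_zmod (p := p) (fixPts G A) ν
    exact ⟨L, AddMonoidHom.ext hL⟩
  have hle : (splitHom (u := u) X).range ≤ res.ker := by
    rintro _ ⟨f, rfl⟩
    exact AddMonoidHom.ext fun a => splitHom_apply_fixPts X hu f a.2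
  have hcard : Nat.card A = Nat.card res.ker * Nat.card (fixPts G A) := by
    rw [← card_dual (p := p) hA,
      ← card_dual (p := p) (A := fixPts G A) fun a => Subtype.ext (hA a.1),
      ← res.ker.card_mul_index, AddSubgroup.index_ker, AddMonoidHom.range_eq_top.mpr hres,
      AddSubgroup.card_top]
  rw [index_split_eq X hfull hC, hcard, lpN_mul p Nat.card_pos.ne' Nat.card_pos.ne']
  have h := lpN_mono p (AddSubgroup.card_dvd_of_le hle) Nat.card_pos.ne'
  linarith

/-- Globally, without invariant elements, every functional is hit. -/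
theorem index_split_of_fixPts_eq_bot [Finite A] (hfull : ∀ x : X.P, x ∈ X.K)
    (hC : ModPFinite p C) (hA : ∀ a : A, p • a = 0) (hfix : fixPts G A = ⊥) :
    X.index (Split u) = X.index C + lpN p (Nat.card A) := by
  classical
  let : Module (ZMod p) A := AddCommGroup.zmodModule hA
  suffices h : (splitHom (u := u) X).range = ⊤ by
    rw [index_split_eq X hfull hC, h, AddSubgroup.card_top, card_dual hA]
  have := free_subgroup (P := X.P) X.S
  -- the functionals `μ (g •) - μ`
  have key : ∀ (g : G) (μ : A →+ ZMod p),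
      μ.comp (DistribSMul.toAddMonoidHom A g) - μ ∈ (splitHom (u := u) X).range := by
    intro g μ
    let e : X.P →+ X.K := AddMonoidHom.mk' (fun x => ⟨x, hfull x⟩) fun _ _ => rfl
    obtain ⟨W, hW⟩ := exists_lift_mulP X.level ((μ.comp X.π).comp e) fun x hx => by
      show μ (X.π ⟨x, _⟩) = 0
      rw [(X.ker _).mpr hx, map_zero]
    let φ : X.S →+ Split u := (zmultiplesHom (Split u) (Split.lift g)).comp W
    refine ⟨⟨normOn X.hS φ, isEquivariantOn_normOn _ _⟩, AddMonoidHom.ext fun a => ?_⟩
    obtain ⟨x, rfl⟩ := X.surj a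
    show splitFun X _ (X.π x) = μ (g • X.π x) - μ (X.π x)
    rw [splitFun_apply]
    show ((Split.coord 1 (normOn X.hS φ (mulP X.level (x : X.P))) : ℤ) : ZMod p) = _
    have hterm : ∀ h : G,
        ((Split.coord 1 (h • φ (smulS X.hS h⁻¹ (mulP X.level (x : X.P)))) : ℤ) : ZMod p) =
          μ (h⁻¹ • X.π x) * ((if h⁻¹ = g then 1 else 0) - (if h⁻¹ = 1 then 1 else 0)) := by
      intro h
      rw [Split.coord_smul, mul_one, smulS_mulP X.hS X.level]
      show ((Split.coord h⁻¹ (W (mulP X.level (h⁻¹ • (x : X.P))) • Split.lift g) : ℤ) : ZMod p) = _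
      rw [map_zsmul, smul_eq_mul, Int.cast_mul, hW, Split.coord_lift]
      show μ (X.π (smulS X.hK h⁻¹ x)) * _ = _
      rw [X.equi]
      congr 1
      split_ifs <;> simp
    rw [normOn_apply, map_sum, Int.cast_sum, Finset.sum_congr rfl fun h _ => hterm h]
    refine Eq.trans (Fintype.sum_equiv (Equiv.inv G) _
        (fun z => μ (z • X.π x) * ((if z = g then 1 else 0) - (if z = 1 then 1 else 0)))
        fun _ => rfl) ?_
    simp [mul_sub, Finset.sum_sub_distrib]
  refine eq_top_iff.mpr fun ν _ => ?_
  let Ψ : A →+ (G → A) := AddMonoidHom.mk' (fun a g => g • a - a) fun a b => funext fun g => by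
    show g • (a + b) - (a + b) = (g • a - a) + (g • b - b)
    rw [smul_add]
    abel
  have hΨ : Function.Injective Ψ := (injective_iff_map_eq_zero _).mpr fun a ha => by
    have : a ∈ fixPts G A := fun g => sub_eq_zero.mp (congrFun ha g)
    rwa [hfix, AddSubgroup.mem_bot] at this
  obtain ⟨L, hL⟩ := exists_extend_zmod (p := p) Ψ.range
    (ν.comp (AddMonoidHom.ofInjective hΨ).symm.toAddMonoidHom)
  have hν : ν = ∑ g : G, ((L.comp (AddMonoidHom.single (fun _ : G => A) g)).comp
      (DistribSMul.toAddMonoidHom A g) - L.comp (AddMonoidHom.single (fun _ : G => A) g)) :=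
    AddMonoidHom.ext fun a => by
      have h1 : L (Ψ a) = ν a := by
        refine (hL ⟨Ψ a, a, rfl⟩).trans ?_
        show ν ((AddMonoidHom.ofInjective hΨ).symm _) = ν a
        exact congrArg ν ((AddMonoidHom.ofInjective hΨ).symm_apply_apply a)
      rw [← h1, AddMonoidHom.finsetSum_apply]
      conv_lhs => rw [← Finset.univ_sum_single (Ψ a), map_sum]
      refine Finset.sum_congr rfl fun g _ => ?_
      show L (Pi.single g (g • a - a)) = L (Pi.single g (g • a)) - L (Pi.single g a)
      rw [← map_sub, ← Pi.single_sub]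
  rw [hν]
  exact AddSubgroup.sum_mem _ fun g _ => key g _

end Fermat.Agent.CFT.Euler
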