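import Fermat.Agent.CFT.Euler.Identity
import Fermat.Agent.CFT.Euler.SplitCompare

/-!
The Euler count: the local indices exceed the global one by the invariants of the local groups
and the functionals fixed by a complex conjugation.
-/

set_option autoImplicit false

noncomputable section

namespace Fermat.Agent.CFT.Euler

open Fermat.Agent.CFT

variable {p : ℕ} [hp : Fact p.Prime] {G : Type} [Group G] [Fintype G]
  {A : Type} [AddCommGroup A] [DistribMulAction G A]

omit [Fintype G] in
theorem lpN_fixDual_bot [Finite A] (hA : ∀ a : A, p • a = 0) :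
    lpN p (Nat.card (fixDual p (⊥ : Subgroup G) A)) = lpN p (Nat.card A) := by
  have h : fixDual p (⊥ : Subgroup G) A = ⊤ := eq_top_iff.mpr fun ν _ g a => by
    rw [Subgroup.smul_def, Subgroup.mem_bot.mp g.2, one_smul]
  rw [h, AddSubgroup.card_top, card_dual hA]

variable {ι : Type} [Fintype ι] {H : ι → Subgroup G} [∀ i, Fintype (H i)]
  {E : ι → Type} [∀ i, AddCommGroup (E i)] [∀ i, DistribMulAction (H i) (E i)]
  {uE : ∀ i, NormCocycle (H i) (E i)}
  {D : Type} [AddCommGroup D] [DistribMulAction G D] {uD : NormCocycle G D}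
  {U : Type} [AddCommGroup U] [DistribMulAction G U]
  {c : Subgroup G} [Fintype c]

/-- The local indices dominate the global one. -/
theorem euler_count [Finite A] (hA : ∀ a : A, p • a = 0) (X : Pres p G A)
    (hfull : ∀ x : X.P, x ∈ X.K) (hfix : fixPts G A = ⊥)
    (hE : ∀ i, IsClassFormation p (uE i)) (hEfin : ∀ i, ModPFinite p (E i))
    (hD : IsClassFormation p uD) (hDfin : ModPFinite p D) (hUfin : ModPFinite p U)
    (hc : Nat.Coprime p (Nat.card c))
    (iU : U →+ ∀ i, CoInd (H i) (E i)) (hiU : ∀ (g : G) (x : U), iU (g • x) = g • iU x)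
    (qD : (∀ i, CoInd (H i) (E i)) →+ D)
    (hqD : ∀ (g : G) (x : ∀ i, CoInd (H i) (E i)), qD (g • x) = g • qD x)
    (hinj : Function.Injective iU) (hex : ∀ y, qD y = 0 → ∃ x, iU x = y)
    (hqi : ∀ x, qD (iU x) = 0) (hqs : Function.Surjective qD)
    (hU : UnitChar p H c U) :
    X.index D + lpN p (Nat.card (fixDual p c A)) +
        ∑ i, lpN p (Nat.card (fixPts (H i) A)) ≤
      ∑ i, (X.restrict (H i)).index (E i) := by
  classical
  -- Rewrite the identity of the invariants in terms of indices.
  have hid := sum_eMod_eq hE hEfin hD hDfin hUfin hc iU hiU qD hqD hinj hex hqi hqs hU hA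
  rw [Finset.sum_congr rfl fun i _ =>
      (eMod_eq_index p (CoInd.good (good_split (hE i))) hA X).trans (CoInd.index_eq X),
    eMod_eq_index p (good_split hD) hA X,
    (eMod_eq_index p (good_coInd_trivZ c hc) hA X).trans (CoInd.index_eq X),
    (X.restrict c).index_trivZ hc] at hid
  have : Fintype (⊥ : Subgroup G) := Fintype.ofFinite _
  have hbot : Nat.Coprime p (Nat.card (⊥ : Subgroup G)) := by
    rw [Subgroup.card_bot]
    exact Nat.coprime_one_right p
  -- The regular module counts the order of `A`.
  have hreg : eMod p (G := G) (FunG G) hA = lpN p (Nat.card A) := by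
    rw [eMod_eq_index p good_funG hA X,
      ← X.index_congr (FunG.coIndEquiv ⊥) (FunG.coIndEquiv_smul ⊥), CoInd.index_eq X]
    have e1 := (X.restrict (⊥ : Subgroup G)).index_add (Aug.incl (G := (⊥ : Subgroup G)))
      (FunG.total (G := (⊥ : Subgroup G))) Aug.incl_smul FunG.total_smul Aug.incl_injective
      Aug.exists_incl_eq Aug.total_incl FunG.total_surjective (good_of_coprime p _ _ hbot)
      Aug.modPFinite TrivZ.modPFinite
    have e2 : (X.restrict (⊥ : Subgroup G)).index (Aug (⊥ : Subgroup G)) = 0 := by
      have : Subsingleton (Aug (⊥ : Subgroup G)) := by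
        refine ⟨fun x y => Aug.incl_injective (funext fun b => ?_)⟩
        have hsub : ∀ z : Aug (⊥ : Subgroup G), Aug.incl z b = 0 := fun z => by
          have h := Aug.total_incl z
          change TrivZ.of (∑ x : (⊥ : Subgroup G), Aug.incl z x) = 0 at h
          rw [Fintype.sum_subsingleton _ b] at h
          exact TrivZ.of.injective (h.trans (map_zero _).symm)
        rw [hsub, hsub]
      exact Pres.index_eq_zero_of_finite _ hbot
    rw [e1, e2, zero_add, (X.restrict (⊥ : Subgroup G)).index_trivZ hbot, lpN_fixDual_bot hA]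
  rw [hreg] at hid
  -- Passing from the splitting modules to the modules themselves gives the two inequalities.
  have hloc : ∀ i, (X.restrict (H i)).index (Split (uE i)) + lpN p (Nat.card (fixPts (H i) A)) ≤
      (X.restrict (H i)).index (E i) + lpN p (Nat.card A) := fun i =>
    index_split_le (X.restrict (H i)) hfull (hEfin i) (hE i) hA
  have hglob := index_split_of_fixPts_eq_bot (u := uD) X hfull hDfin hA hfix
  have hsum := Finset.sum_le_sum (s := Finset.univ) fun i _ => hloc i
  rw [Finset.sum_add_distrib, Finset.sum_add_distrib, Finset.sum_const, Finset.card_univ,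
    nsmul_eq_mul] at hsum
  linarith

end Fermat.Agent.CFT.Euler
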