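import Mathlib.Tactic

/-!
Vocabulary for Euler characteristic counts of finite modules killed by a prime: coinduced modules
from a subgroup and functions that are additive in short exact sequences.
-/

set_option autoImplicit false

noncomputable section

namespace Fermat.Agent.CFT.Euler

variable {G : Type} [Group G]

/-- Functions on `G ⧸ C` with values in a `G`-module, with the diagonal action. -/
def CoindQ (C : Subgroup G) (A : Type) : Type := G ⧸ C → A

namespace CoindQ

variable {C : Subgroup G} {A : Type} [AddCommGroup A] [DistribMulAction G A]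

instance : AddCommGroup (CoindQ C A) := inferInstanceAs (AddCommGroup (G ⧸ C → A))

instance [Finite G] [Finite A] : Finite (CoindQ C A) :=
  inferInstanceAs (Finite (G ⧸ C → A))

instance : DistribMulAction G (CoindQ C A) where
  smul g f := fun x => g • f (g⁻¹ • x)
  one_smul f := funext fun x => show (1 : G) • f ((1 : G)⁻¹ • x) = f x by simp
  mul_smul a b f := funext fun x => by
    show (a * b) • f ((a * b)⁻¹ • x) = a • b • f (b⁻¹ • a⁻¹ • x)
    simp [mul_smul]
  smul_zero g := funext fun x => smul_zero g
  smul_add g f f' := funext fun x => smul_add g _ _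

omit [DistribMulAction G A] in
/-- The coinduced module of a group killed by `p` is killed by `p`. -/
theorem nsmul_eq_zero {p : ℕ} (hA : ∀ a : A, p • a = 0) (f : CoindQ C A) : p • f = 0 :=
  funext fun x => hA (f x)

end CoindQ

/-- A function attaching an integer to each finite module killed by `p`. -/
abbrev ModInvariant (G : Type) [Group G] (p : ℕ) : Type 1 :=
  ∀ (A : Type) [AddCommGroup A] [DistribMulAction G A] [Finite A], (∀ a : A, p • a = 0) → ℤ

/-- Additivity in short exact sequences of finite modules killed by `p`. -/
def IsAdditive {p : ℕ} (ψ : ModInvariant G p) : Prop :=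
  ∀ (A B C : Type) [AddCommGroup A] [DistribMulAction G A] [Finite A]
    [AddCommGroup B] [DistribMulAction G B] [Finite B]
    [AddCommGroup C] [DistribMulAction G C] [Finite C]
    (hA : ∀ a : A, p • a = 0) (hB : ∀ b : B, p • b = 0) (hC : ∀ c : C, p • c = 0)
    (f : A →+ B) (g : B →+ C),
    (∀ (s : G) (a : A), f (s • a) = s • f a) → (∀ (s : G) (b : B), g (s • b) = s • g b) →
    Function.Injective f → Function.Exact f g → Function.Surjective g →
    ψ B hB = ψ A hA + ψ C hC

/-- Vanishing on everything coinduced from cyclic subgroups of order prime to `p`. -/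
def VanishesOnCyclic {p : ℕ} [Finite G] (ψ : ModInvariant G p) : Prop :=
  ∀ C : Subgroup G, IsCyclic C → Nat.Coprime p (Nat.card C) →
    ∀ (A : Type) [AddCommGroup A] [DistribMulAction G A] [Finite A] (hA : ∀ a : A, p • a = 0),
      ψ (CoindQ C A) (CoindQ.nsmul_eq_zero hA) = 0

end Fermat.Agent.CFT.Euler
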