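import Fermat.Agent.CFT.Coh.Level
import Fermat.Agent.CFT.Euler.CoInd
import Fermat.Agent.CFT.Euler.Coprime

/-!
# Restrictions of equivariant maps from the lattice

For a lattice presentation `S ⊆ CFT.Lat G ι` the cokernel of restriction, its behaviour under
coinduction, and the counting for an exact sequence `U → ∏ Mᵢ → D` in which a class in `U` is
detected at the indices outside a distinguished set.
-/

set_option autoImplicit false

noncomputable section

namespace Fermat.Agent.CFT.Euler

open Fermat.Agent.CFT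

/-- A finite group killed by `p` has order a power of `p`. -/
theorem exists_card_eq_pow {p : ℕ} [Fact p.Prime] {V : Type} [AddCommGroup V] [Finite V]
    (h : ∀ x : V, p • x = 0) : ∃ n : ℕ, Nat.card V = p ^ n := by
  let : Module (ZMod p) V := AddCommGroup.zmodModule h
  exact ⟨_, (@Module.natCard_eq_pow_finrank (ZMod p) V inferInstance _ _
    (Module.Finite.of_finite)).trans (by rw [Nat.card_zmod])⟩

section General

variable {G P M : Type*} [Group G] [AddCommGroup P] [DistribMulAction G P]
  [AddCommGroup M] [DistribMulAction G M] {S : AddSubgroup P} (hS : IsStable G S)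

/-- Restrictions of equivariant maps on the ambient module. -/
def extSub : AddSubgroup (equivHom (C := M) hS) where
  carrier := {f | ∃ Y : P →+ M, (∀ (g : G) (x : P), Y (g • x) = g • Y x) ∧ ∀ s : S, f.1 s = Y s}
  add_mem' := by
    rintro f f' ⟨Y, hY, hf⟩ ⟨Y', hY', hf'⟩
    refine ⟨Y + Y', fun g x => ?_, fun s => ?_⟩
    · rw [AddMonoidHom.add_apply, AddMonoidHom.add_apply, hY, hY', smul_add]
    · show f.1 s + f'.1 s = Y s + Y' s
      rw [hf, hf']
  zero_mem' := ⟨0, fun g _ => (smul_zero g).symm, fun _ => rfl⟩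
  neg_mem' := by
    rintro f ⟨Y, hY, hf⟩
    refine ⟨-Y, fun g x => ?_, fun s => ?_⟩
    · rw [AddMonoidHom.neg_apply, AddMonoidHom.neg_apply, hY, smul_neg]
    · show -f.1 s = -Y s
      rw [hf]

/-- Composition with an equivariant map. -/
def compHom {M' : Type*} [AddCommGroup M'] [DistribMulAction G M'] (q : M →+ M')
    (hq : ∀ (g : G) (m : M), q (g • m) = g • q m) :
    equivHom (C := M) hS →+ equivHom (C := M') hS :=
  AddMonoidHom.mk' (fun f => ⟨q.comp f.1, fun g s => by
    show q (f.1 (smulS hS g s)) = g • q (f.1 s)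
    rw [f.2, hq]⟩) fun f f' => Subtype.ext (AddMonoidHom.comp_add q f.1 f'.1)

theorem compHom_apply {M' : Type*} [AddCommGroup M'] [DistribMulAction G M'] (q : M →+ M')
    (hq : ∀ (g : G) (m : M), q (g • m) = g • q m) (f : equivHom (C := M) hS) (s : S) :
    (compHom hS q hq f).1 s = q (f.1 s) := rfl

/-- Composition with an equivariant map preserves restrictions from the lattice. -/
theorem compHom_mem_extSub {M' : Type*} [AddCommGroup M'] [DistribMulAction G M'] (q : M →+ M')
    (hq : ∀ (g : G) (m : M), q (g • m) = g • q m) {f : equivHom (C := M) hS}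
    (hf : f ∈ extSub hS) : compHom hS q hq f ∈ extSub hS := by
  obtain ⟨Y, hY, hfY⟩ := hf
  refine ⟨q.comp Y, fun g x => ?_, fun s => ?_⟩
  · rw [AddMonoidHom.comp_apply, AddMonoidHom.comp_apply, hY, hq]
  · rw [compHom_apply, hfY, AddMonoidHom.comp_apply]

end General

section Lattice

variable {p : ℕ} [hp : Fact p.Prime] {G : Type} [Group G] [Fintype G] {A ι : Type}
  [AddCommGroup A] [DistribMulAction G A] [Fintype ι] {ε : CFT.Lat G ι →+ A}

/-- The presentation by the free lattice. -/
def latPres (hε : Presentation p ε) : Pres p G A where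
  P := CFT.Lat G ι
  induced := CFT.Lat.isInduced
  K := ⊤
  S := ε.ker
  hK := fun _ _ _ => AddSubgroup.mem_top _
  hS := hε.isStable_ker
  le := le_top
  level := hε.smul_mem
  π := ε.comp (⊤ : AddSubgroup (CFT.Lat G ι)).subtype
  surj a := by
    obtain ⟨x, hx⟩ := hε.surjective a
    exact ⟨⟨x, AddSubgroup.mem_top _⟩, hx⟩
  ker x := AddMonoidHom.mem_ker.symm
  equi g x := hε.map_smul g x

omit hp in
theorem latPres_full (hε : Presentation p ε) (x : CFT.Lat G ι) : x ∈ (latPres hε).K :=
  AddSubgroup.mem_top _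

/-- Lifting equivariant maps on the lattice along surjections. -/
theorem exists_lat_lift {M M' : Type} [AddCommGroup M] [DistribMulAction G M] [AddCommGroup M']
    [DistribMulAction G M'] (q : M →+ M') (hq : ∀ (g : G) (m : M), q (g • m) = g • q m)
    (hqs : Function.Surjective q) (Y : CFT.Lat G ι →+ M')
    (hY : ∀ (g : G) (x : CFT.Lat G ι), Y (g • x) = g • Y x) :
    ∃ Z : CFT.Lat G ι →+ M, (∀ (g : G) (x : CFT.Lat G ι), Z (g • x) = g • Z x) ∧ q.comp Z = Y := by
  choose m hm using fun i => hqs (Y (CFT.Lat.e i 1))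
  refine ⟨CFT.Lat.ofBasis fun i x => x • m i, fun g => CFT.Lat.map_smul_of_basis _ g fun i x => ?_,
    CFT.Lat.hom_ext fun i x => ?_⟩
  · rw [CFT.Lat.ofBasis_e, CFT.Lat.ofBasis_e, mul_smul]
  · rw [AddMonoidHom.comp_apply, CFT.Lat.ofBasis_e, hq, hm, ← hY, CFT.Lat.smul_e, mul_one]

variable (hε : Presentation p ε) (M : Type) [AddCommGroup M] [DistribMulAction G M]

omit hp in
theorem range_res_eq : ((latPres hε).res M).range = extSub (M := M) hε.isStable_ker := by
  ext f
  constructor
  · rintro ⟨F, rfl⟩
    let e : CFT.Lat G ι →+ (⊤ : AddSubgroup (CFT.Lat G ι)) :=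
      AddMonoidHom.mk' (fun x => ⟨x, AddSubgroup.mem_top _⟩) fun _ _ => rfl
    exact ⟨F.1.comp e, fun g x => F.2 g (e x), fun s => rfl⟩
  · rintro ⟨Y, hY, hf⟩
    exact ⟨⟨Y.comp (⊤ : AddSubgroup (CFT.Lat G ι)).subtype, fun g x => hY g x.1⟩,
      Subtype.ext (AddMonoidHom.ext fun s => (hf s).symm)⟩

omit hp in
/-- The Euler index of the lattice presentation at `M` is the `p`-exponent of the index of
restrictions minus that of the number of equivariant maps `A → M`. -/
theorem index_latPres_eq : (latPres hε).index M =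
    lpN p (extSub (M := M) hε.isStable_ker).index - lpN p (Nat.card (equivFun G A M)) := by
  rw [Pres.index, lpIndex, range_res_eq, Pres.card_ker_res]
  rfl

/-- If `M` has finite kernel and cokernel of `p`, restrictions from the lattice have finite
index. -/
theorem index_extSub_ne_zero (hM : ModPFinite p M) :
    (extSub (M := M) hε.isStable_ker).index ≠ 0 := by
  rw [← range_res_eq hε M]
  exact ((latPres hε).finiteIndexHom hM).index

include hε in
/-- There are only finitely many equivariant maps from `A` to a module with finite `M[p]` and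
`M / p`. -/
theorem finite_equivFun (hM : ModPFinite p M) : Finite (equivFun G A M) := by
  apply Nat.finite_of_card_ne_zero
  rw [← Pres.card_ker_res (latPres hε)]
  exact ((latPres hε).finiteIndexHom hM).card_ker_ne_zero

omit hp [Fintype G] [Fintype ι] in
/-- Multiples of `p` are restrictions. -/
theorem nsmul_mem_extSub (f : equivHom (C := M) hε.isStable_ker) :
    p • f ∈ extSub hε.isStable_ker := by
  refine ⟨f.1.comp (mulP hε.smul_mem), fun g x => ?_, fun s => ?_⟩
  · rw [AddMonoidHom.comp_apply, AddMonoidHom.comp_apply, ← f.2, smulS_mulP]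
  · show p • f.1 s = f.1 (mulP hε.smul_mem (s : CFT.Lat G ι))
    rw [mulP_coe, map_nsmul]

/-- The cokernel of restriction is killed by `p`, so its order is a power of `p`. -/
theorem exists_index_eq_pow (hM : ModPFinite p M) :
    ∃ n : ℕ, (extSub (M := M) hε.isStable_ker).index = p ^ n := by
  set E := extSub (M := M) hε.isStable_ker
  have : E.FiniteIndex := ⟨index_extSub_ne_zero hε M hM⟩
  refine exists_card_eq_pow (p := p) fun x => ?_
  obtain ⟨f, rfl⟩ := QuotientAddGroup.mk'_surjective E x
  rw [← map_nsmul]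
  exact (QuotientAddGroup.eq_zero_iff _).mpr (nsmul_mem_extSub hε M f)

variable {M} (H : Subgroup G) {N : Type} [AddCommGroup N] [DistribMulAction H N]

/-- The value at the identity of a map into a coinduced module. -/
def evHom {S : AddSubgroup (CFT.Lat G ι)} (hS : IsStable G S) :
    equivHom (C := CoInd H N) hS →+ equivHom (C := N) (IsStable.restrict hS H) :=
  AddMonoidHom.mk' (fun f => ⟨CoInd.ev.comp f.1, fun h s => by
    show CoInd.ev (f.1 (smulS hS (h : G) s)) = h • CoInd.ev (f.1 s)
    rw [f.2, CoInd.ev_smul_mem]⟩) fun f f' => Subtype.ext (AddMonoidHom.comp_add _ f.1 f'.1)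

omit [Fintype G] [Fintype ι] in
theorem evHom_bijective [Fintype H] {S : AddSubgroup (CFT.Lat G ι)} (hS : IsStable G S) :
    Function.Bijective (evHom (N := N) H hS) := CoInd.postEv_bijective hS

omit [Fintype G] [Fintype ι] in
theorem extSub_coInd {S : AddSubgroup (CFT.Lat G ι)} (hS : IsStable G S) :
    extSub (M := CoInd H N) hS = (extSub (M := N) (IsStable.restrict hS H)).comap (evHom H hS) := by
  ext f
  constructor
  · rintro ⟨Y, hY, hf⟩
    refine ⟨CoInd.ev.comp Y, fun h x => ?_, fun s => ?_⟩
    · show CoInd.ev (Y ((h : G) • x)) = h • CoInd.ev (Y x)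
      rw [hY, CoInd.ev_smul_mem]
    · exact congrArg CoInd.ev (hf s)
  · rintro ⟨y, hy, hf⟩
    let Y : CFT.Lat G ι →+ CoInd H N := AddMonoidHom.mk'
      (fun z => CoInd.mk (fun x => y (x • z)) fun h x => by
        rw [mul_smul]; exact hy h (x • z)) fun z w => CoInd.ext fun x => by
        show y (x • (z + w)) = y (x • z) + y (x • w)
        rw [smul_add, map_add]
    refine ⟨Y, fun g z => CoInd.ext fun x => ?_, fun s => CoInd.ext fun x => ?_⟩
    · show y (x • g • z) = y ((x * g) • z)
      rw [smul_smul]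
    · show _ = y (x • (s : CFT.Lat G ι))
      rw [← CoInd.ev_smul, ← f.2]
      exact hf (smulS hS x s)

omit [Fintype G] [Fintype ι] in
/-- Shapiro: the index of restrictions into a coinduced module equals that into the inducing
module. -/
theorem index_extSub_coInd {S : AddSubgroup (CFT.Lat G ι)} (hS : IsStable G S) [Fintype H] :
    (extSub (M := CoInd H N) hS).index = (extSub (M := N) (IsStable.restrict hS H)).index := by
  rw [extSub_coInd, AddSubgroup.index_comap_of_surjective _ (evHom_bijective H hS).surjective]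

end Lattice

section Exact

variable {p : ℕ} [hp : Fact p.Prime] {G : Type} [Group G] [Fintype G] {A ι : Type}
  [AddCommGroup A] [DistribMulAction G A] [Fintype ι] {ε : CFT.Lat G ι →+ A} (hε : Presentation p ε)
  {τ : Type} {M : τ → Type} [∀ i, AddCommGroup (M i)] [∀ i, DistribMulAction G (M i)]
  {U D : Type} [AddCommGroup U] [DistribMulAction G U] [AddCommGroup D] [DistribMulAction G D]
  (iU : U →+ ∀ i, M i) (hiU : ∀ (g : G) (x : U), iU (g • x) = g • iU x)
  (qD : (∀ i, M i) →+ D) (hqD : ∀ (g : G) (x : ∀ i, M i), qD (g • x) = g • qD x)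
  (good : τ → Prop)

/-- Classes in `U` that are trivial at all indices outside `good` are trivial. -/
def DetectedOff : Prop :=
  ∀ x : equivHom (C := U) hε.isStable_ker,
    (∀ i, ¬ good i → compHom hε.isStable_ker (Pi.evalAddMonoidHom M i) (fun _ _ => rfl)
      (compHom hε.isStable_ker iU hiU x) ∈ extSub hε.isStable_ker) → x ∈ extSub hε.isStable_ker

variable (hinj : Function.Injective iU) (hex : ∀ y, qD y = 0 → ∃ x, iU x = y)
  (hqi : ∀ x, qD (iU x) = 0) (hqs : Function.Surjective qD)

omit hp in
include hinj hex hqs hqD hiU in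
/-- The part at `good` injects into the cokernel of restriction for `D`. -/
theorem mem_extSub_of_qD (hdet : DetectedOff hε iU hiU good)
    (y : equivHom (C := ∀ i, M i) hε.isStable_ker) (hy : ∀ i, ¬ good i → ∀ s, y.1 s i = 0)
    (h : compHom hε.isStable_ker qD hqD y ∈ extSub hε.isStable_ker) :
    y ∈ extSub hε.isStable_ker := by
  obtain ⟨Z, hZ, hyZ⟩ := h
  obtain ⟨W, hW, hWZ⟩ := exists_lat_lift qD hqD hqs Z hZ
  have hu : ∀ s : ε.ker, ∃ u, iU u = y.1 s - W s := fun s => hex _ (by
    rw [map_sub, sub_eq_zero]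
    exact (hyZ s).trans (DFunLike.congr_fun hWZ (s : CFT.Lat G ι)).symm)
  choose u hu using hu
  let x : equivHom (C := U) hε.isStable_ker := ⟨AddMonoidHom.mk' u fun s t => hinj (by
      rw [map_add, hu, hu, hu, map_add, AddSubgroup.coe_add, map_add]; abel),
    fun g s => hinj (by
      show iU (u _) = iU (g • u s)
      rw [hu, hiU, hu, y.2, smul_sub, coe_smulS, hW])⟩
  obtain ⟨Y, hY, hxY⟩ := hdet x fun i hi => by
    refine ⟨-((Pi.evalAddMonoidHom M i).comp W), fun g z => ?_, fun s => ?_⟩
    · show -(W (g • z) i) = g • -(W z i)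
      rw [hW, Pi.smul_apply, smul_neg]
    · show iU (u s) i = -(W s i)
      rw [hu, Pi.sub_apply, hy i hi, zero_sub]
  refine ⟨W + iU.comp Y, fun g z => ?_, fun s => ?_⟩
  · simp only [AddMonoidHom.add_apply, AddMonoidHom.comp_apply, hW, hY, hiU, smul_add]
  · rw [AddMonoidHom.add_apply, AddMonoidHom.comp_apply, ← hxY, show x.1 s = u s from rfl, hu,
      add_sub_cancel]

omit hp in
include hinj hex hqi hqs hqD hiU in
/-- If restrictions are detected off `good`, every equivariant map into `D` comes from one into the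
product. -/
theorem exists_equivFun_lift (hdet : DetectedOff hε iU hiU good) (h : equivFun G A D) :
    ∃ h' : equivFun G A (∀ i, M i), qD.comp h'.1 = h.1 := by
  obtain ⟨W, hW, hWh⟩ := exists_lat_lift qD hqD hqs (h.1.comp ε) fun g x => by
    rw [AddMonoidHom.comp_apply, AddMonoidHom.comp_apply, hε.map_smul, h.2]
  have hu : ∀ s : ε.ker, ∃ u, iU u = W s := fun s => hex _ (by
    have e := DFunLike.congr_fun hWh (s : CFT.Lat G ι)
    rw [AddMonoidHom.comp_apply, AddMonoidHom.comp_apply, AddMonoidHom.mem_ker.mp s.2,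
      map_zero] at e
    exact e)
  choose u hu using hu
  let x : equivHom (C := U) hε.isStable_ker := ⟨AddMonoidHom.mk' u fun s t => hinj (by
      rw [map_add, hu, hu, hu, AddSubgroup.coe_add, map_add]),
    fun g s => hinj (by
      show iU (u _) = iU (g • u s)
      rw [hu, hiU, hu, coe_smulS, hW])⟩
  obtain ⟨Y, hY, hxY⟩ := hdet x fun i _ => by
    refine ⟨(Pi.evalAddMonoidHom M i).comp W, fun g z => ?_, fun s => ?_⟩
    · show W (g • z) i = g • W z i
      rw [hW, Pi.smul_apply]
    · exact congrFun (hu s) i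
  let W' := W - iU.comp Y
  have hker : ε.ker ≤ W'.ker := fun z hz => by
    show W z - iU (Y z) = 0
    rw [← hu ⟨z, hz⟩, show u ⟨z, hz⟩ = Y z from hxY ⟨z, hz⟩, sub_self]
  let f : A →+ ∀ i, M i := AddMonoidHom.liftOfSurjective ε hε.surjective ⟨W', hker⟩
  have hf : ∀ z, f (ε z) = W' z := fun z =>
    AddMonoidHom.liftOfRightInverse_comp_apply ε _ _ ⟨W', hker⟩ z
  refine ⟨⟨f, fun g a => ?_⟩, AddMonoidHom.ext fun a => ?_⟩
  · obtain ⟨z, rfl⟩ := hε.surjective a
    rw [← hε.map_smul, hf, hf]
    simp only [W', AddMonoidHom.sub_apply, AddMonoidHom.comp_apply, hW, hY, hiU, smul_sub]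
  · obtain ⟨z, rfl⟩ := hε.surjective a
    rw [AddMonoidHom.comp_apply, hf, AddMonoidHom.sub_apply, map_sub, AddMonoidHom.comp_apply, hqi,
      sub_zero]
    exact DFunLike.congr_fun hWh z

variable [Fintype τ]

omit hp in
include hinj hex hqi hqs hqD hiU in
/-- For exact `0 → U → ∏ M i → D → 0` detected off `good`, at most `∏ i, #Hom_G(A, M i)`
equivariant maps `A → D` exist. -/
theorem card_equivFun_le (hdet : DetectedOff hε iU hiU good)
    (hfin : ∀ i, Finite (equivFun G A (M i))) :
    Nat.card (equivFun G A D) ≤ ∏ i, Nat.card (equivFun G A (M i)) := by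
  choose l hl using exists_equivFun_lift hε iU hiU qD hqD good hinj hex hqi hqs hdet
  rw [← Nat.card_pi]
  refine Nat.card_le_card_of_injective
    (fun h i => (⟨(Pi.evalAddMonoidHom M i).comp (l h).1, fun g a => by
      show (l h).1 (g • a) i = g • (l h).1 a i
      rw [(l h).2, Pi.smul_apply]⟩ : equivFun G A (M i))) fun h h' e => Subtype.ext ?_
  rw [← hl h, ← hl h']
  congr 1
  exact AddMonoidHom.ext fun a => funext fun i =>
    DFunLike.congr_fun (congrArg Subtype.val (congrFun e i)) a

end Exact

end Fermat.Agent.CFT.Euler
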