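import Fermat.Agent.CFT.Euler.Additive

/-!
Extension of homomorphisms into modules killed by `p`, and averaging over a group of order prime
to `p`.
-/

set_option autoImplicit false

noncomputable section

namespace Fermat.Agent.CFT.Euler

open Fermat.Agent.CFT

variable {p : ℕ} [hp : Fact p.Prime] {P : Type*} [AddCommGroup P] {M : Type*} [AddCommGroup M]

/-- Extension from a subgroup of a `ZMod p`-module. -/
theorem exists_extend_zmod {Q N : Type*} [AddCommGroup Q] [AddCommGroup N] [Module (ZMod p) Q]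
    [Module (ZMod p) N] (W : AddSubgroup Q) (f : W →+ N) :
    ∃ L : Q →+ N, ∀ w : W, L w = f w := by
  let W' : Submodule (ZMod p) Q := AddSubgroup.toZModSubmodule p W
  let f' : W' →+ N := AddMonoidHom.mk' (fun w => f ⟨w.1, w.2⟩) fun a b =>
    map_add f ⟨a.1, a.2⟩ ⟨b.1, b.2⟩
  obtain ⟨L, hL⟩ := LinearMap.exists_extend (AddMonoidHom.toZModLinearMap p f')
  exact ⟨L.toAddMonoidHom, fun w => LinearMap.congr_fun hL ⟨w.1, w.2⟩⟩

/-- A homomorphism on `T` killing `p S` extends to `S` when the target is killed by `p`. -/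
theorem exists_extend_killed (hM : ∀ m : M, p • m = 0) {T S : AddSubgroup P} (hle : T ≤ S)
    (hmem : ∀ s ∈ S, p • s ∈ T) (f : T →+ M)
    (hf : ∀ (s : P) (hs : s ∈ S), f ⟨p • s, hmem s hs⟩ = 0) :
    ∃ g : S →+ M, ∀ t : T, g (AddSubgroup.inclusion hle t) = f t := by
  let : Module (ZMod p) M := AddCommGroup.zmodModule hM
  let R : AddSubgroup S := (nsmulAddMonoidHom p : S →+ S).range
  let : Module (ZMod p) (S ⧸ R) := AddCommGroup.zmodModule fun x => by
    obtain ⟨y, rfl⟩ := QuotientAddGroup.mk'_surjective R x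
    rw [← map_nsmul]
    exact (QuotientAddGroup.eq_zero_iff _).mpr ⟨y, rfl⟩
  let π : T →+ S ⧸ R := (QuotientAddGroup.mk' R).comp (AddSubgroup.inclusion hle)
  have hker : π.ker ≤ f.ker := by
    intro t ht
    obtain ⟨s, hs⟩ := (QuotientAddGroup.eq_zero_iff _).mp ht
    have e : t = ⟨p • (s : P), hmem s s.2⟩ := Subtype.ext (congrArg Subtype.val hs).symm
    show f t = 0
    rw [e]
    exact hf s s.2
  let fV : π.range →+ M := AddMonoidHom.liftOfSurjective π.rangeRestrict π.rangeRestrict_surjective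
    ⟨f, fun x hx => hker (congrArg Subtype.val (AddMonoidHom.mem_ker.mp hx))⟩
  have hfV : ∀ t, fV (π.rangeRestrict t) = f t := fun t =>
    AddMonoidHom.liftOfRightInverse_comp_apply π.rangeRestrict _ _ ⟨f, _⟩ t
  obtain ⟨L, hL⟩ := exists_extend_zmod (p := p) π.range fV
  exact ⟨L.comp (QuotientAddGroup.mk' R), fun t => (hL ⟨π t, t, rfl⟩).trans (hfV t)⟩

variable {G : Type*} [Group G] [Fintype G] [DistribMulAction G P] [DistribMulAction G M]

/-- The equivariant version of `exists_extend_killed` for groups of order prime to `p`. -/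
theorem exists_equivariant_extend (hG : Nat.Coprime p (Nat.card G)) (hM : ∀ m : M, p • m = 0)
    {T S : AddSubgroup P} (hT : IsStable G T) (hS : IsStable G S) (hle : T ≤ S)
    (hmem : ∀ s ∈ S, p • s ∈ T) (f : equivHom (C := M) hT)
    (hf : ∀ (s : P) (hs : s ∈ S), f.1 ⟨p • s, hmem s hs⟩ = 0) :
    ∃ g : equivHom (C := M) hS, resHom hS hT hle g = f := by
  obtain ⟨g₀, hg₀⟩ := exists_extend_killed hM hle hmem f.1 hf
  obtain ⟨a, b, hab⟩ : IsCoprime (p : ℤ) (Nat.card G : ℤ) := Nat.isCoprime_iff_coprime.mpr hG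
  refine ⟨⟨b • normOn hS g₀, fun g s => ?_⟩, Subtype.ext (AddMonoidHom.ext fun t => ?_)⟩
  · show b • normOn hS g₀ (smulS hS g s) = g • b • normOn hS g₀ s
    rw [isEquivariantOn_normOn hS g₀ g s, smul_comm]
  · show b • normOn hS g₀ (AddSubgroup.inclusion hle t) = f.1 t
    have e : normOn hS g₀ (AddSubgroup.inclusion hle t) = (Nat.card G : ℤ) • f.1 t := by
      rw [normOn_apply, natCast_zsmul, Nat.card_eq_fintype_card, ← Finset.card_univ,
        ← Finset.sum_const]
      refine Finset.sum_congr rfl fun g _ => ?_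
      have e1 : g₀ (AddSubgroup.inclusion hle (smulS hT g⁻¹ t)) = g⁻¹ • f.1 t := by
        rw [hg₀, f.2]
      calc g • g₀ (smulS hS g⁻¹ (AddSubgroup.inclusion hle t))
          = g • g₀ (AddSubgroup.inclusion hle (smulS hT g⁻¹ t)) := rfl
        _ = f.1 t := by rw [e1, smul_inv_smul]
    rw [e, smul_smul]
    calc (b * (Nat.card G : ℤ)) • f.1 t
        = (a * (p : ℤ) + b * (Nat.card G : ℤ)) • f.1 t := by
          rw [add_smul, mul_smul a, natCast_zsmul, hM, smul_zero, zero_add]
      _ = f.1 t := by rw [hab, one_smul]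

end Fermat.Agent.CFT.Euler
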