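import Mathlib.Tactic

/-!
The logarithmic index `lp(coker f) - lp(ker f)` of a homomorphism of abelian groups.
-/

set_option autoImplicit false

noncomputable section

namespace Fermat.Agent.CFT.Euler

variable (p : ℕ) [hp : Fact p.Prime]

/-- The exponent of `p` in a natural number, as an integer. -/
def lpN (n : ℕ) : ℤ := (padicValNat p n : ℤ)

theorem lpN_mul {m n : ℕ} (hm : m ≠ 0) (hn : n ≠ 0) : lpN p (m * n) = lpN p m + lpN p n := by
  rw [lpN, lpN, lpN, padicValNat.mul hm hn]; push_cast; ring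

omit hp in
@[simp] theorem lpN_one : lpN p 1 = 0 := by simp [lpN]

/-- The exponent of `p` in `p ^ n` is `n`. -/
theorem lpN_pow (n : ℕ) : lpN p (p ^ n) = n := by
  rw [lpN, padicValNat.prime_pow]

theorem lpN_mono {m n : ℕ} (h : m ∣ n) (hn : n ≠ 0) : lpN p m ≤ lpN p n := by
  obtain ⟨c, rfl⟩ := h
  rw [lpN_mul p (left_ne_zero_of_mul hn) (right_ne_zero_of_mul hn)]
  have : 0 ≤ lpN p c := Int.natCast_nonneg _
  omega

variable {A B C : Type*} [AddCommGroup A] [AddCommGroup B] [AddCommGroup C]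

/-- `lp #coker - lp #ker`. -/
def lpIndex (f : A →+ B) : ℤ := lpN p f.range.index - lpN p (Nat.card f.ker)

/-- Finite kernel and cokernel. -/
structure FiniteIndexHom (f : A →+ B) : Prop where
  ker : Finite f.ker
  index : f.range.index ≠ 0

theorem FiniteIndexHom.card_ker_ne_zero {f : A →+ B} (h : FiniteIndexHom f) :
    Nat.card f.ker ≠ 0 :=
  haveI := h.ker
  Nat.card_pos.ne'

omit hp in
/-- The kernel of a composite is an extension of `ker g ∩ im f` by `ker f`. -/
theorem card_ker_comp (f : A →+ B) (g : B →+ C) :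
    Nat.card (g.comp f).ker = Nat.card f.ker * Nat.card (g.ker ⊓ f.range : AddSubgroup B) := by
  let φ : (g.comp f).ker →+ B := f.comp (g.comp f).ker.subtype
  have e1 : Nat.card φ.ker = Nat.card f.ker := by
    refine Nat.card_congr ⟨fun x => ⟨x.1.1, x.2⟩, fun x => ⟨⟨x.1, ?_⟩, x.2⟩, fun _ => rfl,
      fun _ => rfl⟩
    show g (f x.1) = 0
    rw [show f x.1 = 0 from x.2, map_zero]
  have e2 : φ.range = g.ker ⊓ f.range := by
    refine le_antisymm ?_ ?_
    · rintro _ ⟨x, rfl⟩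
      exact ⟨x.2, x.1, rfl⟩
    · rintro b ⟨hb, a, rfl⟩
      exact ⟨⟨a, hb⟩, rfl⟩
  rw [← e1, ← e2, ← φ.ker.card_mul_index, AddSubgroup.index_ker]

omit hp in
/-- The cokernel of a composite. -/
theorem index_range_comp (f : A →+ B) (g : B →+ C) :
    (g.comp f).range.index = (f.range ⊔ g.ker).index * g.range.index := by
  rw [AddMonoidHom.range_comp, AddSubgroup.index_map]

omit hp in
/-- `[B : im f]` through `im f + ker g`. -/
theorem index_eq_relIndex_mul (f : A →+ B) (g : B →+ C) :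
    f.range.index = f.range.relIndex g.ker * (f.range ⊔ g.ker).index := by
  rw [← AddSubgroup.relIndex_mul_index (le_sup_left : f.range ≤ f.range ⊔ g.ker),
    AddSubgroup.relIndex_sup_left]

omit hp in
theorem card_ker_eq_mul_relIndex (f : A →+ B) (g : B →+ C) :
    Nat.card g.ker =
      Nat.card (g.ker ⊓ f.range : AddSubgroup B) * f.range.relIndex g.ker := by
  rw [← ((f.range).addSubgroupOf g.ker).card_mul_index, AddSubgroup.relIndex, inf_comm]
  congr 1
  refine Nat.card_congr ⟨fun x => ⟨x.1.1, x.2, x.1.2⟩, fun x => ⟨⟨x.1, x.2.2⟩, x.2.1⟩,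
    fun _ => rfl, fun _ => rfl⟩

omit hp in
/-- A composite of maps with finite kernel and finite index has finite kernel and finite index. -/
theorem FiniteIndexHom.comp {f : A →+ B} {g : B →+ C} (hf : FiniteIndexHom f)
    (hg : FiniteIndexHom g) : FiniteIndexHom (g.comp f) := by
  refine ⟨Nat.finite_of_card_ne_zero ?_, ?_⟩
  · rw [card_ker_comp]
    have := hf.ker
    have := hg.ker
    have : Finite (g.ker ⊓ f.range : AddSubgroup B) :=
      Finite.of_injective (AddSubgroup.inclusion inf_le_left) (AddSubgroup.inclusion_injective _)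
    exact mul_ne_zero Nat.card_pos.ne' Nat.card_pos.ne'
  · rw [index_range_comp]
    have h := index_eq_relIndex_mul f g
    exact mul_ne_zero (right_ne_zero_of_mul (h ▸ hf.index)) hg.index

/-- The index is additive on composites. -/
theorem lpIndex_comp {f : A →+ B} {g : B →+ C} (hf : FiniteIndexHom f) (hg : FiniteIndexHom g) :
    lpIndex p (g.comp f) = lpIndex p f + lpIndex p g := by
  have := hg.ker
  have : Finite (g.ker ⊓ f.range : AddSubgroup B) :=
    Finite.of_injective (AddSubgroup.inclusion inf_le_left) (AddSubgroup.inclusion_injective _)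
  have h1 := index_eq_relIndex_mul f g
  have h2 := card_ker_eq_mul_relIndex f g
  have hr : f.range.relIndex g.ker ≠ 0 := left_ne_zero_of_mul (h1 ▸ hf.index)
  have hs : (f.range ⊔ g.ker).index ≠ 0 := right_ne_zero_of_mul (h1 ▸ hf.index)
  simp only [lpIndex, card_ker_comp, index_range_comp, h1, h2, lpN_mul p hf.card_ker_ne_zero
    Nat.card_pos.ne', lpN_mul p hs hg.index, lpN_mul p hr hs, lpN_mul p Nat.card_pos.ne' hr]
  ring

variable {A' B' : Type*} [AddCommGroup A'] [AddCommGroup B']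

omit hp in
/-- A map of arrows that is bijective on kernels and cokernels preserves their orders. -/
theorem arrow_congr {f : A →+ B} {f' : A' →+ B'} (a : A →+ A') (b : B →+ B')
    (hsq : ∀ x, f' (a x) = b (f x))
    (hker_inj : ∀ x, f x = 0 → a x = 0 → x = 0)
    (hker_surj : ∀ y, f' y = 0 → ∃ x, f x = 0 ∧ a x = y)
    (hco_inj : ∀ z, b z ∈ f'.range → z ∈ f.range)
    (hco_surj : ∀ z', ∃ z, z' - b z ∈ f'.range) :
    Nonempty (f.ker ≃ f'.ker) ∧ f.range.index = f'.range.index := by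
  refine ⟨⟨Equiv.ofBijective
      (fun x => (⟨a x.1, by rw [AddMonoidHom.mem_ker, hsq, x.2, map_zero]⟩ : f'.ker)) ⟨?_, ?_⟩⟩, ?_⟩
  · intro x y h
    have h' : a x.1 = a y.1 := congrArg Subtype.val h
    refine Subtype.ext (sub_eq_zero.mp (hker_inj _ ?_ ?_))
    · rw [map_sub, x.2, y.2, sub_zero]
    · rw [map_sub, h', sub_self]
  · intro y
    obtain ⟨x, hx, hxy⟩ := hker_surj _ y.2
    exact ⟨⟨x, hx⟩, Subtype.ext hxy⟩
  · have hc : f.range = f'.range.comap b := by
      refine le_antisymm ?_ fun z hz => hco_inj z hz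
      rintro _ ⟨x, rfl⟩
      exact ⟨a x, hsq x⟩
    have htop : f'.range ⊔ b.range = ⊤ := by
      refine eq_top_iff.mpr fun z' _ => ?_
      obtain ⟨z, hz⟩ := hco_surj z'
      exact AddSubgroup.mem_sup.mpr ⟨_, hz, b z, ⟨z, rfl⟩, sub_add_cancel _ _⟩
    rw [hc, AddSubgroup.index_comap, ← AddSubgroup.relIndex_top_right f'.range, ← htop,
      AddSubgroup.relIndex_sup_left]

omit hp in
/-- Invariance under a map of arrows that is bijective on kernels and cokernels. -/
theorem lpIndex_congr {f : A →+ B} {f' : A' →+ B'} (a : A →+ A') (b : B →+ B')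
    (hsq : ∀ x, f' (a x) = b (f x))
    (hker_inj : ∀ x, f x = 0 → a x = 0 → x = 0)
    (hker_surj : ∀ y, f' y = 0 → ∃ x, f x = 0 ∧ a x = y)
    (hco_inj : ∀ z, b z ∈ f'.range → z ∈ f.range)
    (hco_surj : ∀ z', ∃ z, z' - b z ∈ f'.range) :
    lpIndex p f = lpIndex p f' := by
  obtain ⟨⟨e1⟩, e2⟩ := arrow_congr a b hsq hker_inj hker_surj hco_inj hco_surj
  rw [lpIndex, lpIndex, Nat.card_congr e1, e2]

omit hp in
/-- The finiteness of kernel and cokernel along such a map. -/
theorem finiteIndexHom_congr_iff {f : A →+ B} {f' : A' →+ B'} (a : A →+ A') (b : B →+ B')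
    (hsq : ∀ x, f' (a x) = b (f x))
    (hker_inj : ∀ x, f x = 0 → a x = 0 → x = 0)
    (hker_surj : ∀ y, f' y = 0 → ∃ x, f x = 0 ∧ a x = y)
    (hco_inj : ∀ z, b z ∈ f'.range → z ∈ f.range)
    (hco_surj : ∀ z', ∃ z, z' - b z ∈ f'.range) :
    FiniteIndexHom f ↔ FiniteIndexHom f' := by
  obtain ⟨⟨e1⟩, e2⟩ := arrow_congr a b hsq hker_inj hker_surj hco_inj hco_surj
  exact ⟨fun h => ⟨haveI := h.ker; Finite.of_equiv _ e1, e2 ▸ h.index⟩,
    fun h => ⟨haveI := h.ker; Finite.of_equiv _ e1.symm, e2 ▸ h.index⟩⟩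

/-- Additivity of the index in maps of short exact sequences. -/
theorem lpIndex_ses {A₂ B₂ C₂ : Type*} [AddCommGroup A₂] [AddCommGroup B₂] [AddCommGroup C₂]
    {a : A →+ A₂} {b : B →+ B₂} {c : C →+ C₂}
    (i : A →+ B) (q : B →+ C) (i₂ : A₂ →+ B₂) (q₂ : B₂ →+ C₂)
    (hi : Function.Injective i) (hq : Function.Surjective q) (hex : ∀ y, q y = 0 → ∃ x, i x = y)
    (hqi : ∀ x, q (i x) = 0)
    (hi₂ : Function.Injective i₂) (hq₂ : Function.Surjective q₂)
    (hex₂ : ∀ y, q₂ y = 0 → ∃ x, i₂ x = y) (hqi₂ : ∀ x, q₂ (i₂ x) = 0)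
    (hab : ∀ x, b (i x) = i₂ (a x)) (hbc : ∀ y, q₂ (b y) = c (q y))
    (ha : FiniteIndexHom a) (hc : FiniteIndexHom c) :
    FiniteIndexHom b ∧ lpIndex p b = lpIndex p a + lpIndex p c := by
  -- Factor `b` through the pullback `Q` of `c` along `q₂`.
  let Q : AddSubgroup (B₂ × C) :=
    ((q₂.comp (AddMonoidHom.fst B₂ C)) - c.comp (AddMonoidHom.snd B₂ C)).ker
  have hQ : ∀ z : B₂ × C, z ∈ Q ↔ q₂ z.1 = c z.2 := fun z => sub_eq_zero
  let u : B →+ Q := (b.prod q).codRestrict Q fun y => (hQ _).mpr (hbc y)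
  let v : Q →+ B₂ := (AddMonoidHom.fst B₂ C).comp Q.subtype
  let j : A₂ →+ Q := (i₂.prod 0).codRestrict Q fun x => (hQ _).mpr (by
    show q₂ (i₂ x) = c 0
    rw [hqi₂, map_zero])
  -- The first factor has the kernel and cokernel of `a`,
  have hua : FiniteIndexHom u ∧ lpIndex p a = lpIndex p u := by
    have h1 : ∀ x, u (i x) = j (a x) := fun x => Subtype.ext (Prod.ext (hab x) (hqi x))
    have h2 : ∀ x, a x = 0 → i x = 0 → x = 0 := fun x _ hx => hi (by rw [hx, map_zero])
    have h3 : ∀ y, u y = 0 → ∃ x, a x = 0 ∧ i x = y := fun y hy => by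
      have hy' : b y = 0 ∧ q y = 0 := Prod.ext_iff.mp (congrArg Subtype.val hy)
      obtain ⟨x, rfl⟩ := hex y hy'.2
      exact ⟨x, hi₂ (by rw [← hab, hy'.1, map_zero]), rfl⟩
    have h4 : ∀ z, j z ∈ u.range → z ∈ a.range := fun z ⟨y, hy⟩ => by
      have hy' : b y = i₂ z ∧ q y = 0 := Prod.ext_iff.mp (congrArg Subtype.val hy)
      obtain ⟨x, rfl⟩ := hex y hy'.2
      exact ⟨x, hi₂ (by rw [← hab, hy'.1])⟩
    have h5 : ∀ z', ∃ z, z' - j z ∈ u.range := fun z' => by
      obtain ⟨y, hy⟩ := hq z'.1.2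
      obtain ⟨z, hz⟩ := hex₂ (z'.1.1 - b y) (by
        rw [map_sub, hbc, hy, (hQ _).mp z'.2, sub_self])
      refine ⟨z, y, Subtype.ext (Prod.ext ?_ ?_)⟩
      · show b y = z'.1.1 - i₂ z
        rw [hz, sub_sub_cancel]
      · show q y = z'.1.2 - 0
        rw [hy, sub_zero]
    exact ⟨(finiteIndexHom_congr_iff i j h1 h2 h3 h4 h5).mp ha,
      lpIndex_congr (p := p) i j h1 h2 h3 h4 h5⟩
  -- and the second those of `c`.
  have hvc : FiniteIndexHom v ∧ lpIndex p v = lpIndex p c := by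
    let s : Q →+ C := (AddMonoidHom.snd B₂ C).comp Q.subtype
    have h1 : ∀ z, c (s z) = q₂ (v z) := fun z => ((hQ _).mp z.2).symm
    have h2 : ∀ z, v z = 0 → s z = 0 → z = 0 := fun z h h' => Subtype.ext (Prod.ext h h')
    have h3 : ∀ x, c x = 0 → ∃ z, v z = 0 ∧ s z = x := fun x hx =>
      ⟨⟨(0, x), (hQ _).mpr (by rw [map_zero, hx])⟩, rfl, rfl⟩
    have h4 : ∀ z, q₂ z ∈ c.range → z ∈ v.range := fun z ⟨x, hx⟩ =>
      ⟨⟨(z, x), (hQ _).mpr hx.symm⟩, rfl⟩
    have h5 : ∀ z', ∃ z, z' - q₂ z ∈ c.range := fun z' => by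
      obtain ⟨z, rfl⟩ := hq₂ z'
      exact ⟨z, by rw [sub_self]; exact zero_mem _⟩
    exact ⟨(finiteIndexHom_congr_iff s q₂ h1 h2 h3 h4 h5).mpr hc,
      lpIndex_congr (p := p) s q₂ h1 h2 h3 h4 h5⟩
  have hb : b = v.comp u := AddMonoidHom.ext fun _ => rfl
  rw [hb, lpIndex_comp p hua.1 hvc.1, hua.2, hvc.2]
  exact ⟨hua.1.comp hvc.1, rfl⟩

omit hp in
theorem card_ker_piMap {ι : Type*} {A₁ B₁ : ι → Type*} [∀ i, AddCommGroup (A₁ i)]
    [∀ i, AddCommGroup (B₁ i)] (f : ∀ i, A₁ i →+ B₁ i) [Fintype ι] :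
    Nat.card (AddMonoidHom.pi fun i => (f i).comp (Pi.evalAddMonoidHom A₁ i)).ker =
      ∏ i, Nat.card (f i).ker := by
  rw [← Nat.card_pi]
  exact Nat.card_congr ⟨fun x i => ⟨x.1 i, congrFun x.2 i⟩,
    fun x => ⟨fun i => (x i).1, funext fun i => (x i).2⟩, fun _ => rfl, fun _ => rfl⟩

/-- The index of a product of maps. -/
theorem lpIndex_pi {ι : Type*} [Fintype ι] {A₁ B₁ : ι → Type*} [∀ i, AddCommGroup (A₁ i)]
    [∀ i, AddCommGroup (B₁ i)] (f : ∀ i, A₁ i →+ B₁ i) (hf : ∀ i, FiniteIndexHom (f i)) :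
    FiniteIndexHom (AddMonoidHom.pi fun i => (f i).comp (Pi.evalAddMonoidHom A₁ i)) ∧
      lpIndex p (AddMonoidHom.pi fun i => (f i).comp (Pi.evalAddMonoidHom A₁ i)) =
        ∑ i, lpIndex p (f i) := by
  set F := AddMonoidHom.pi fun i => (f i).comp (Pi.evalAddMonoidHom A₁ i)
  -- Image and kernel are the products of the images and kernels.
  have hr : F.range = AddSubgroup.pi Set.univ fun i => (f i).range := by
    ext y
    refine ⟨?_, fun h => ?_⟩
    · rintro ⟨x, rfl⟩ i -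
      exact ⟨x i, rfl⟩
    · choose x hx using fun i => h i (Set.mem_univ i)
      exact ⟨x, funext hx⟩
  have hidx : F.range.index = ∏ i, (f i).range.index := by
    let φ : (∀ i, B₁ i) →+ ∀ i, B₁ i ⧸ (f i).range :=
      AddMonoidHom.pi fun i => (QuotientAddGroup.mk' _).comp (Pi.evalAddMonoidHom B₁ i)
    have hφ : Function.Surjective φ := fun z => by
      choose y hy using fun i => QuotientAddGroup.mk'_surjective (f i).range (z i)
      exact ⟨y, funext hy⟩
    have hker : F.range = φ.ker := by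
      rw [hr]
      ext y
      exact ⟨fun h => funext fun i => (QuotientAddGroup.eq_zero_iff _).mpr (h i (Set.mem_univ i)),
        fun h i _ => (QuotientAddGroup.eq_zero_iff _).mp (congrFun h i)⟩
    rw [hker, AddSubgroup.index_ker, AddMonoidHom.range_eq_top.mpr hφ, AddSubgroup.card_top,
      Nat.card_pi]
    rfl
  have hk0 : ∀ i ∈ (Finset.univ : Finset ι), Nat.card (f i).ker ≠ 0 :=
    fun i _ => (hf i).card_ker_ne_zero
  refine ⟨⟨Nat.finite_of_card_ne_zero ?_, ?_⟩, ?_⟩
  · rw [card_ker_piMap]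
    exact Finset.prod_ne_zero_iff.mpr hk0
  · rw [hidx]
    exact Finset.prod_ne_zero_iff.mpr fun i _ => (hf i).index
  · have hlp : ∀ g : ι → ℕ, (∀ i, g i ≠ 0) → lpN p (∏ i, g i) = ∑ i, lpN p (g i) := by
      classical
      intro g hg
      induction (Finset.univ : Finset ι) using Finset.induction_on with
      | empty => simp
      | insert i s hi ih =>
        rw [Finset.prod_insert hi, Finset.sum_insert hi,
          lpN_mul p (hg i) (Finset.prod_ne_zero_iff.mpr fun j _ => hg j), ih]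
    rw [lpIndex, hidx, card_ker_piMap, hlp _ fun i => (hf i).index,
      hlp _ fun i => (hf i).card_ker_ne_zero, ← Finset.sum_sub_distrib]
    rfl

end Fermat.Agent.CFT.Euler
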