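import Fermat.Agent.CFT.Euler.Lattices

/-!
The Euler index with coefficients in the trivial lattice, for a group of order prime to `p`.
-/

set_option autoImplicit false

noncomputable section

namespace Fermat.Agent.CFT.Euler

open Fermat.Agent.CFT

variable (p : ℕ) (G : Type) [Group G] (A : Type) [AddCommGroup A] [DistribMulAction G A]

/-- Invariant functionals. -/
def fixDual : AddSubgroup (A →+ ZMod p) where
  carrier := {ν | ∀ (g : G) (a : A), ν (g • a) = ν a}
  add_mem' {ν ν'} h h' g a := by
    show ν (g • a) + ν' (g • a) = ν a + ν' a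
    rw [h, h']
  zero_mem' _ _ := rfl
  neg_mem' {ν} h g a := by
    show -ν (g • a) = -ν a
    rw [h]

variable {p G A} [Fintype G] [hp : Fact p.Prime] (X : Pres p G A)

variable (p G) in
/-- Reduction of the trivial lattice modulo `p`. -/
private def redTriv : TrivZ G →+ ZMod p :=
  (Int.castAddHom (ZMod p)).comp TrivZ.of.symm.toAddMonoidHom

omit [Group G] [Fintype G] in
private theorem redTriv_nsmul (m : TrivZ G) : redTriv p G (p • m) = 0 := by
  rw [map_nsmul, nsmul_eq_mul, ZMod.natCast_self, zero_mul]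

omit [Group G] [Fintype G] in
private theorem exists_nsmul_eq_of_redTriv_eq_zero {n : TrivZ G} (hn : redTriv p G n = 0) :
    ∃ m : TrivZ G, p • m = n := by
  obtain ⟨m, hm⟩ := (ZMod.intCast_zmod_eq_zero_iff_dvd (TrivZ.of.symm n) p).mp hn
  exact ⟨TrivZ.of m, by rw [← map_nsmul, nsmul_eq_mul, ← hm, TrivZ.of.apply_symm_apply]⟩

omit [Group G] [Fintype G] in
/-- The trivial lattice has no `p`-torsion. -/
private theorem nsmul_trivZ_cancel {m m' : TrivZ G} (h : p • m = p • m') : m = m' := by
  have h' := congrArg TrivZ.of.symm h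
  rw [map_nsmul, map_nsmul, nsmul_eq_mul, nsmul_eq_mul] at h'
  exact TrivZ.of.symm.injective (mul_left_cancel₀ (Nat.cast_ne_zero.mpr hp.out.ne_zero) h')

/-- Multiplication by `p` from `K` into `S`. -/
private def mulK : X.K →+ X.S := (mulP X.level).comp X.K.subtype

omit hp in
private theorem mulK_smulS (g : G) (x : X.K) :
    mulK X (smulS X.hK g x) = smulS X.hS g (mulK X x) :=
  Subtype.ext (smul_comm g p (x : X.P)).symm

private theorem ker_pi_le (f : X.S →+ TrivZ G) :
    X.π.ker ≤ ((redTriv p G).comp (f.comp (mulK X))).ker := fun x hx => by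
  show redTriv p G (f (mulK X x)) = 0
  rw [show mulK X x = p • ⟨x, (X.ker x).mp hx⟩ from rfl, map_nsmul]
  exact redTriv_nsmul _

/-- The functional `π x ↦ f (p • x) mod p` on `A`. -/
private def trivFun (f : X.S →+ TrivZ G) : A →+ ZMod p :=
  AddMonoidHom.liftOfSurjective X.π X.surj
    ⟨(redTriv p G).comp (f.comp (mulK X)), ker_pi_le X f⟩

private theorem trivFun_apply (f : X.S →+ TrivZ G) (x : X.K) :
    trivFun X f (X.π x) = redTriv p G (f (mulK X x)) :=
  AddMonoidHom.liftOfRightInverse_comp_apply X.π _ _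
    ⟨(redTriv p G).comp (f.comp (mulK X)), ker_pi_le X f⟩ x

/-- The connecting map from equivariant maps on `S` to invariant functionals on `A`. -/
private def trivConnect : equivHom (C := TrivZ G) X.hS →+ fixDual p G A :=
  AddMonoidHom.mk' (fun f => ⟨trivFun X f.1, fun g a => by
    obtain ⟨x, rfl⟩ := X.surj a
    rw [← X.equi, trivFun_apply, trivFun_apply, mulK_smulS, f.2, TrivZ.smul_eq]⟩)
    fun f f' => Subtype.ext (AddMonoidHom.ext fun a => by
      obtain ⟨x, rfl⟩ := X.surj a
      show trivFun X (f + f').1 (X.π x) = trivFun X f.1 (X.π x) + trivFun X f'.1 (X.π x)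
      rw [trivFun_apply, trivFun_apply, trivFun_apply, ← map_add]
      rfl)

/-- A functional on `A` lifts to an integral functional on `S`, seen through multiplication
by `p`. -/
private theorem exists_lift_redTriv (ν : A →+ ZMod p) :
    ∃ W : X.S →+ TrivZ G, ∀ x : X.K, redTriv p G (W (mulK X x)) = ν (X.π x) := by
  have := free_subgroup (P := X.P) X.S
  have hinjP : Function.Injective (nsmulAddMonoidHom p : X.P →+ X.P) := fun x y hxy => by
    have h0 : (p : ℤ) • (x - y) = 0 := by
      rw [natCast_zsmul, smul_sub, sub_eq_zero]; exact hxy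
    exact sub_eq_zero.mp
      ((smul_eq_zero.mp h0).resolve_left (Int.natCast_ne_zero.mpr hp.out.ne_zero))
  -- `ν` lives on `T = p K`; since `p S ⊆ T` is killed, it extends to `S` modulo `p`
  let T : AddSubgroup X.P := X.K.map (nsmulAddMonoidHom p : X.P →+ X.P)
  let e : X.K ≃+ T := X.K.equivMapOfInjective _ hinjP
  have he : ∀ x : X.K, (e x : X.P) = p • (x : X.P) := fun x => rfl
  have hTS : T ≤ X.S := by
    rintro _ ⟨x, -, rfl⟩
    exact X.level x
  obtain ⟨g₀, hg₀⟩ := exists_extend_killed (p := p) (M := ZMod p)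
    (fun m => by rw [nsmul_eq_mul, ZMod.natCast_self, zero_mul]) hTS
    (fun s hs => ⟨s, X.le hs, rfl⟩) ((ν.comp X.π).comp e.symm.toAddMonoidHom) fun s hs => by
      have e1 : ∀ (q : p • s ∈ T), e.symm ⟨p • s, q⟩ = ⟨s, X.le hs⟩ := fun q => e.injective (by
        rw [e.apply_symm_apply]
        exact Subtype.ext (he ⟨s, X.le hs⟩).symm)
      show ν (X.π (e.symm _)) = 0
      rw [e1, (X.ker _).mpr hs, map_zero]
  -- lift the extension basis element by basis element
  let b := Module.Free.chooseBasis ℤ X.S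
  let W : X.S →+ TrivZ G :=
    (b.constr ℤ fun i => (TrivZ.of (((g₀ (b i)).val : ℤ)) : TrivZ G)).toAddMonoidHom
  have hW : ((redTriv p G).comp W).toIntLinearMap = g₀.toIntLinearMap := b.ext fun i => by
    show redTriv p G (b.constr ℤ _ (b i)) = g₀ (b i)
    rw [Module.Basis.constr_basis]
    show ((TrivZ.of.symm (TrivZ.of (((g₀ (b i)).val : ℤ)) : TrivZ G) : ℤ) : ZMod p) = _
    rw [TrivZ.of.symm_apply_apply, Int.cast_natCast, ZMod.natCast_zmod_val]
  refine ⟨W, fun x => (LinearMap.congr_fun hW (mulK X x)).trans ?_⟩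
  show g₀ (mulK X x) = ν (X.π x)
  rw [show mulK X x = AddSubgroup.inclusion hTS (e x) from Subtype.ext (he x).symm, hg₀]
  show ν (X.π (e.symm (e x))) = _
  rw [e.symm_apply_apply]

/-- For a group of order prime to `p` every invariant functional comes from an equivariant map. -/
private theorem trivConnect_surjective (hG : Nat.Coprime p (Nat.card G)) :
    Function.Surjective (trivConnect X) := by
  intro ν
  obtain ⟨W, hW⟩ := exists_lift_redTriv X ν.1
  obtain ⟨a, c, hac⟩ : IsCoprime (p : ℤ) (Nat.card G : ℤ) := Nat.isCoprime_iff_coprime.mpr hG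
  -- average `W` over `G` and correct by an inverse `c` of the order modulo `p`
  refine ⟨⟨c • normOn X.hS W, fun g s => ?_⟩, Subtype.ext (AddMonoidHom.ext fun z => ?_)⟩
  · show c • normOn X.hS W (smulS X.hS g s) = g • c • normOn X.hS W s
    rw [isEquivariantOn_normOn X.hS W g s, TrivZ.smul_eq, TrivZ.smul_eq]
  obtain ⟨x, rfl⟩ := X.surj z
  show trivFun X _ (X.π x) = ν.1 (X.π x)
  rw [trivFun_apply]
  show redTriv p G (c • normOn X.hS W (mulK X x)) = ν.1 (X.π x)
  rw [map_zsmul, normOn_apply, map_sum]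
  have hterm : ∀ g : G, redTriv p G (g • W (smulS X.hS g⁻¹ (mulK X x))) = ν.1 (X.π x) := fun g => by
    rw [TrivZ.smul_eq, ← mulK_smulS, hW, X.equi, ν.2]
  rw [Finset.sum_congr rfl fun g _ => hterm g, Finset.sum_const, Finset.card_univ,
    ← Nat.card_eq_fintype_card, ← natCast_zsmul, smul_smul]
  calc (c * (Nat.card G : ℤ)) • ν.1 (X.π x)
      = (a * (p : ℤ) + c * (Nat.card G : ℤ)) • ν.1 (X.π x) := by
        rw [add_smul, zsmul_eq_mul (ν.1 _) (a * (p : ℤ)), Int.cast_mul, Int.cast_natCast,
          ZMod.natCast_self, mul_zero, zero_mul, zero_add]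
    _ = _ := by rw [hac, one_smul]

/-- An equivariant map on `S` extends to `K` exactly when its connecting functional vanishes. -/
private theorem range_res_eq_ker_trivConnect :
    (X.res (TrivZ G)).range = (trivConnect X).ker := by
  refine le_antisymm ?_ fun f hf => ?_
  · rintro _ ⟨g, rfl⟩
    refine Subtype.ext (AddMonoidHom.ext fun a => ?_)
    obtain ⟨x, rfl⟩ := X.surj a
    show trivFun X _ (X.π x) = 0
    rw [trivFun_apply]
    show redTriv p G (g.1 (p • x)) = 0
    rw [map_nsmul]
    exact redTriv_nsmul _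
  · -- divide `f (p • x)` by `p`
    have hdiv : ∀ x : X.K, ∃ m : TrivZ G, p • m = f.1 (mulK X x) := fun x =>
      exists_nsmul_eq_of_redTriv_eq_zero (by
        have h := DFunLike.congr_fun (congrArg Subtype.val (AddMonoidHom.mem_ker.mp hf)) (X.π x)
        change trivFun X f.1 (X.π x) = 0 at h
        rwa [trivFun_apply] at h)
    choose φ hφ using hdiv
    let g : X.K →+ TrivZ G := AddMonoidHom.mk' φ fun x y => nsmul_trivZ_cancel (p := p) (by
      rw [smul_add, hφ, hφ, hφ, map_add, map_add])
    refine ⟨⟨g, fun h x => nsmul_trivZ_cancel (p := p) ?_⟩,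
      Subtype.ext (AddMonoidHom.ext fun s => nsmul_trivZ_cancel (p := p) ?_)⟩
    · show p • φ _ = p • h • φ x
      rw [hφ, smul_comm p h, hφ, mulK_smulS, f.2]
    · show p • φ _ = p • f.1 s
      rw [hφ, ← map_nsmul]
      rfl

private theorem card_ker_res_trivZ : Nat.card (X.res (TrivZ G)).ker = 1 := by
  rw [AddSubgroup.card_eq_one, AddSubgroup.eq_bot_iff_forall]
  refine fun g hg => Subtype.ext (AddMonoidHom.ext fun x => nsmul_trivZ_cancel (p := p) ?_)
  rw [← map_nsmul]
  exact ((resHom_eq_zero_iff X.hK X.hS X.le g).mp hg (p • x) (X.level x)).trans (smul_zero p).symm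

/-- For a group of order prime to `p`, the index with coefficients in the trivial lattice. -/
theorem Pres.index_trivZ (hG : Nat.Coprime p (Nat.card G)) :
    X.index (TrivZ G) = lpN p (Nat.card (fixDual p G A)) := by
  rw [Pres.index, lpIndex, range_res_eq_ker_trivConnect, card_ker_res_trivZ,
    AddSubgroup.index_ker, AddMonoidHom.range_eq_top.mpr (trivConnect_surjective X hG),
    AddSubgroup.card_top, lpN_one, sub_zero]

end Fermat.Agent.CFT.Euler
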