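import Fermat.Agent.CFT.Euler.Artin
import Fermat.Agent.CFT.Euler.Shapiro
import Fermat.Agent.CFT.Euler.Values

/-!
# The Euler index identity

The comparison of the local and global Euler indices for splitting modules.

Given local class formations, a global class formation `D` sitting in `U → ⊕ CoInd E → D` and the
character of `U` at subgroups of order prime to `p`, the two sides agree by Artin induction.
-/

set_option autoImplicit false

noncomputable section

namespace Fermat.Agent.CFT.Euler

open Fermat.Agent.CFT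

variable {p : ℕ} [hp : Fact p.Prime] {G : Type} [Group G] [Fintype G]

omit hp in
theorem good_funG : Good p G (FunG G) := by
  classical
  have : Fintype (⊥ : Subgroup G) := Fintype.ofFinite _
  refine Good.congr (FunG.coIndEquiv ⊥) (FunG.coIndEquiv_smul ⊥)
    (CoInd.good (good_of_coprime p (⊥ : Subgroup G) _ ?_))
  rw [Subgroup.card_bot]
  exact Nat.coprime_one_right p

omit hp in
theorem good_coInd_trivZ (c : Subgroup G) [Fintype c] (hc : Nat.Coprime p (Nat.card c)) :
    Good p G (CoInd c (TrivZ c)) :=
  CoInd.good (good_of_coprime p c _ hc)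

variable {ι : Type} [Fintype ι] {H : ι → Subgroup G} [∀ i, Fintype (H i)]
  {E : ι → Type} [∀ i, AddCommGroup (E i)] [∀ i, DistribMulAction (H i) (E i)]
  {uE : ∀ i, NormCocycle (H i) (E i)}
  {D : Type} [AddCommGroup D] [DistribMulAction G D] {uD : NormCocycle G D}
  {U : Type} [AddCommGroup U] [DistribMulAction G U]
  {c : Subgroup G} [Fintype c]

/-- The character of the unit module at subgroups of order prime to `p`. -/
def UnitChar (p : ℕ) {G : Type} [Group G] [Fintype G] {ι : Type} [Fintype ι]
    (H : ι → Subgroup G) (c : Subgroup G) (U : Type) [AddCommGroup U] [DistribMulAction G U] :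
    Prop :=
  ∀ (C : Subgroup G) [Fintype C], Nat.Coprime p (Nat.card C) →
    ∀ (A : Type) [AddCommGroup A] [DistribMulAction C A] (X : Pres p C A),
      X.index U + X.index (TrivZ G) =
        (∑ i, X.index (CoInd (H i) (TrivZ (H i)))) + X.index (CoInd c (TrivZ c))

variable (hE : ∀ i, IsClassFormation p (uE i)) (hEfin : ∀ i, ModPFinite p (E i))
  (hD : IsClassFormation p uD) (hDfin : ModPFinite p D) (hUfin : ModPFinite p U)
  (hc : Nat.Coprime p (Nat.card c))
  (iU : U →+ ∀ i, CoInd (H i) (E i)) (hiU : ∀ (g : G) (x : U), iU (g • x) = g • iU x)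
  (qD : (∀ i, CoInd (H i) (E i)) →+ D)
  (hqD : ∀ (g : G) (x : ∀ i, CoInd (H i) (E i)), qD (g • x) = g • qD x)
  (hinj : Function.Injective iU) (hex : ∀ y, qD y = 0 → ∃ x, iU x = y)
  (hqi : ∀ x, qD (iU x) = 0) (hqs : Function.Surjective qD)
  (hU : UnitChar p H c U)

include hE hEfin hD hDfin hUfin hc hiU hqD hinj hex hqi hqs hU

omit hE hD hc in
omit [Fintype c] in
/-- The defect of the Euler comparison at a subgroup of order prime to `p` vanishes. -/
theorem index_sum_eq (C : Subgroup G) [Fintype C] (hC : Nat.Coprime p (Nat.card C)) {A : Type}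
    [AddCommGroup A] [DistribMulAction C A] (X : Pres p C A) :
    (∑ i, X.index (CoInd (H i) (Split (uE i)))) - X.index (Split uD) -
      X.index (CoInd c (TrivZ c)) - ((Fintype.card ι : ℤ) - 1) * X.index (FunG G) = 0 := by
  have good : ∀ (M : Type) [AddCommGroup M] [DistribMulAction C M], Good p C M := fun M _ _ =>
    good_of_coprime p C M hC
  -- The index is additive in the sequence `U → J → D`, the order of `C` being prime to `p`.
  have hJ : X.index (∀ i, CoInd (H i) (E i)) = X.index U + X.index D :=
    X.index_add iU qD (fun g x => hiU (g : G) x) (fun g x => hqD (g : G) x) hinj hex hqi hqs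
      (good _) hUfin hDfin
  have hJ' := X.index_pi (F := fun i => CoInd (H i) (E i)) fun i => CoInd.modPFinite (hEfin i)
  -- A splitting module adds the regular module and removes the trivial one.
  have hloc : ∀ i, X.index (CoInd (H i) (Split (uE i))) =
      X.index (CoInd (H i) (E i)) + X.index (FunG G) - X.index (CoInd (H i) (TrivZ (H i))) := by
    intro i
    have e1 := X.index_add
      (CoInd.map (Split.inl (u := uE i)) fun g x => (Split.smul_inl g x).symm)
      (CoInd.map (Aug.ofSplit (u := uE i)) Aug.ofSplit_smul)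
      (fun g x => CoInd.map_smul _ _ (g : G) x) (fun g x => CoInd.map_smul _ _ (g : G) x)
      (CoInd.map_injective _ _ fun _ _ h => congrArg Split.fstHom h)
      (CoInd.map_exact _ _ _ _ (fun _ _ h => congrArg Split.fstHom h) Aug.exists_inl_eq)
      (fun x => CoInd.ext fun g => Aug.ofSplit_inl _)
      (CoInd.map_surjective _ _ Aug.ofSplit_surjective) (good _) (CoInd.modPFinite (hEfin i))
      (CoInd.modPFinite Aug.modPFinite)
    have e2 := X.index_add
      (CoInd.map (Aug.incl (G := H i)) Aug.incl_smul)
      (CoInd.map (FunG.total (G := H i)) FunG.total_smul)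
      (fun g x => CoInd.map_smul _ _ (g : G) x) (fun g x => CoInd.map_smul _ _ (g : G) x)
      (CoInd.map_injective _ _ Aug.incl_injective)
      (CoInd.map_exact _ _ _ _ Aug.incl_injective Aug.exists_incl_eq)
      (fun x => CoInd.ext fun g => Aug.total_incl _)
      (CoInd.map_surjective _ _ FunG.total_surjective) (good _) (CoInd.modPFinite Aug.modPFinite)
      (CoInd.modPFinite TrivZ.modPFinite)
    have e3 := X.index_congr (FunG.coIndEquiv (H i)) fun g F =>
      FunG.coIndEquiv_smul (H i) (g : G) F
    omega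
  have hglob : X.index (Split uD) = X.index D + X.index (FunG G) - X.index (TrivZ G) := by
    have e1 := X.index_add (Split.inl (u := uD)) (Aug.ofSplit (u := uD))
      (fun g x => (Split.smul_inl (g : G) x).symm) (fun g z => Aug.ofSplit_smul (g : G) z)
      (fun _ _ h => congrArg Split.fstHom h) Aug.exists_inl_eq Aug.ofSplit_inl
      Aug.ofSplit_surjective (good _) hDfin Aug.modPFinite
    have e2 := X.index_add (Aug.incl (G := G)) (FunG.total (G := G))
      (fun g z => Aug.incl_smul (g : G) z) (fun g z => FunG.total_smul (g : G) z)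
      Aug.incl_injective Aug.exists_incl_eq Aug.total_incl FunG.total_surjective (good _)
      Aug.modPFinite TrivZ.modPFinite
    omega
  have hUC := hU C hC A X
  have hsum : ∑ i, X.index (CoInd (H i) (Split (uE i))) =
      (∑ i, X.index (CoInd (H i) (E i))) + (Fintype.card ι : ℤ) * X.index (FunG G) -
        ∑ i, X.index (CoInd (H i) (TrivZ (H i))) := by
    rw [Finset.sum_congr rfl fun i _ => hloc i, Finset.sum_sub_distrib, Finset.sum_add_distrib,
      Finset.sum_const, Finset.card_univ, nsmul_eq_mul]
  rw [hsum, hglob, ← hJ', hJ]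
  linarith

/-- The local and global Euler indices of splitting modules differ by `e(A, ℤ[G/c])` and a
multiple of `e(A, ℤ[G])`. -/
theorem sum_eMod_eq {A : Type} [AddCommGroup A] [DistribMulAction G A] [Finite A]
    (hA : ∀ a : A, p • a = 0) :
    (∑ i, eMod p (G := G) (CoInd (H i) (Split (uE i))) hA) - eMod p (G := G) (Split uD) hA =
      eMod p (G := G) (CoInd c (TrivZ c)) hA +
        ((Fintype.card ι : ℤ) - 1) * eMod p (G := G) (FunG G) hA := by
  have g1 : ∀ i, Good p G (CoInd (H i) (Split (uE i))) := fun i => CoInd.good (good_split (hE i))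
  have g2 : Good p G (Split uD) := good_split hD
  have g3 := good_coInd_trivZ (p := p) c hc
  have g4 : Good p G (FunG G) := good_funG
  have m1 : ∀ i, ModPFinite p (CoInd (H i) (Split (uE i))) := fun i =>
    CoInd.modPFinite (Aug.split_modPFinite (hEfin i))
  have a1 := fun i => isAdditive_eMod p (g1 i) (m1 i)
  have a2 := isAdditive_eMod p g2 (Aug.split_modPFinite hDfin)
  have a3 := isAdditive_eMod p g3 (CoInd.modPFinite TrivZ.modPFinite)
  have a4 := isAdditive_eMod p g4 FunG.modPFinite
  let ψ : ModInvariant G p := fun B _ _ _ hB =>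
    (∑ i, eMod p (G := G) (CoInd (H i) (Split (uE i))) hB) - eMod p (G := G) (Split uD) hB -
      eMod p (G := G) (CoInd c (TrivZ c)) hB -
        ((Fintype.card ι : ℤ) - 1) * eMod p (G := G) (FunG G) hB
  have hadd : IsAdditive ψ := by
    intro B₁ B₂ B₃ _ _ _ _ _ _ _ _ _ h₁ h₂ h₃ f g hf hg hfi hfg hgs
    have e1 := fun i => a1 i B₁ B₂ B₃ h₁ h₂ h₃ f g hf hg hfi hfg hgs
    have e2 := a2 B₁ B₂ B₃ h₁ h₂ h₃ f g hf hg hfi hfg hgs
    have e3 := a3 B₁ B₂ B₃ h₁ h₂ h₃ f g hf hg hfi hfg hgs
    have e4 := a4 B₁ B₂ B₃ h₁ h₂ h₃ f g hf hg hfi hfg hgs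
    show _ - _ = (_ - _) + (_ - _)
    simp only at e1 e2 e3 e4
    rw [Finset.sum_congr rfl fun i _ => e1 i, e2, e3, e4, Finset.sum_add_distrib]
    ring
  have hcyc : VanishesOnCyclic ψ := by
    intro C _ hC B _ _ _ hB
    classical
    have : Fintype C := Fintype.ofFinite _
    let X := (canonPres p (G := G) hB)
    show _ - _ = 0
    rw [Finset.sum_congr rfl fun i _ => eMod_coindQ C (g1 i) hB X, eMod_coindQ C g2 hB X,
      eMod_coindQ C g3 hB X, eMod_coindQ C g4 hB X]
    exact index_sum_eq hEfin hDfin hUfin iU hiU qD hqD hinj hex hqi hqs hU C hC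
      (X.restrict C)
  have h := eq_zero_of_vanishesOnCyclic ψ hadd hcyc A hA
  change _ - _ = (0 : ℤ) at h
  linarith

end Fermat.Agent.CFT.Euler
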