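import Fermat.Agent.CFT.Euler.CoInd
import Fermat.Agent.CFT.Euler.Coprime

/-!
The trivial lattice, the regular lattice, the augmentation lattice, and the image of a splitting
module in it.
-/

set_option autoImplicit false

noncomputable section

namespace Fermat.Agent.CFT.Euler

open Fermat.Agent.CFT

/-- The integers with trivial action. -/
def TrivZ (_G : Type) : Type := ℤ

namespace TrivZ

variable {G : Type} [Group G]

instance : AddCommGroup (TrivZ G) := inferInstanceAs (AddCommGroup ℤ)

/-- Integers as elements of the trivial lattice. -/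
def of : ℤ ≃+ TrivZ G := AddEquiv.refl ℤ

instance : DistribMulAction G (TrivZ G) where
  smul _ n := n
  one_smul _ := rfl
  mul_smul _ _ _ := rfl
  smul_zero _ := rfl
  smul_add _ _ _ := rfl

theorem smul_eq (g : G) (n : TrivZ G) : g • n = n := rfl

omit [Group G] in
/-- The trivial lattice has finite kernel and cokernel of `p`. -/
theorem modPFinite {p : ℕ} [hp : Fact p.Prime] : ModPFinite p (TrivZ G) := by
  refine ModPFinite.congr of ⟨?_, ?_⟩
  · have : Subsingleton (nsmulAddMonoidHom p : ℤ →+ ℤ).ker := ⟨fun x y => Subtype.ext (by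
      have hx : ∀ z : (nsmulAddMonoidHom p : ℤ →+ ℤ).ker, (z : ℤ) = 0 := fun z => by
        have h : p • (z : ℤ) = 0 := z.2
        rw [nsmul_eq_mul] at h
        exact (mul_eq_zero.mp h).resolve_left (Nat.cast_ne_zero.mpr hp.out.ne_zero)
      rw [hx, hx])⟩
    infer_instance
  · refine fun h0 => ?_
    have hle : (nsmulAddMonoidHom p : ℤ →+ ℤ).range = AddSubgroup.zmultiples (p : ℤ) := by
      ext x
      constructor
      · rintro ⟨y, rfl⟩
        exact ⟨y, by show y • (p : ℤ) = p • y; rw [smul_eq_mul, nsmul_eq_mul, mul_comm]⟩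
      · rintro ⟨y, rfl⟩
        exact ⟨y, by show p • y = y • (p : ℤ); rw [smul_eq_mul, nsmul_eq_mul, mul_comm]⟩
    rw [hle, Int.index_zmultiples, Int.natAbs_natCast] at h0
    exact hp.out.ne_zero h0

end TrivZ

/-- The regular lattice, as functions. -/
def FunG (G : Type) : Type := G → ℤ

namespace FunG

variable {G : Type} [Group G]

instance : AddCommGroup (FunG G) := inferInstanceAs (AddCommGroup (G → ℤ))

instance : DistribMulAction G (FunG G) where
  smul g f := fun x => f (g⁻¹ * x)
  one_smul f := funext fun x => show f ((1 : G)⁻¹ * x) = f x by simp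
  mul_smul a b f := funext fun x => by
    show f ((a * b)⁻¹ * x) = f (b⁻¹ * (a⁻¹ * x))
    rw [mul_inv_rev, mul_assoc]
  smul_zero _ := rfl
  smul_add _ _ _ := rfl

theorem smul_apply (g : G) (f : FunG G) (x : G) : (g • f) x = f (g⁻¹ * x) := rfl

variable [Fintype G]

/-- The sum of the values. -/
def total : FunG G →+ TrivZ G :=
  AddMonoidHom.mk' (fun f => TrivZ.of (∑ x : G, f x)) fun f f' => by
    rw [← map_add, ← Finset.sum_add_distrib]
    rfl

theorem total_smul (g : G) (f : FunG G) : total (g • f) = g • total f := by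
  show TrivZ.of (∑ x : G, f (g⁻¹ * x)) = TrivZ.of (∑ x : G, f x)
  rw [Fintype.sum_equiv (Equiv.mulLeft g⁻¹) (fun x => f (g⁻¹ * x)) f fun x => rfl]

/-- Every integer is the total of some element of the regular lattice. -/
theorem total_surjective : Function.Surjective (total (G := G)) := fun n => by
  classical
  refine ⟨fun x => if x = 1 then TrivZ.of.symm n else 0, ?_⟩
  show TrivZ.of (∑ x : G, if x = 1 then TrivZ.of.symm n else 0) = n
  rw [Finset.sum_ite_eq', if_pos (Finset.mem_univ _)]
  exact TrivZ.of.apply_symm_apply n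

omit [Group G] in
/-- The regular lattice has finite kernel and cokernel of `p`. -/
theorem modPFinite {p : ℕ} [Fact p.Prime] : ModPFinite p (FunG G) :=
  (ModPFinite.pi fun _ : G => (TrivZ.modPFinite (G := G) (p := p)).congr TrivZ.of.symm :
    ModPFinite p (G → ℤ))

/-- The regular lattice is coinduced from the regular lattice of a subgroup. -/
def coIndEquiv (H : Subgroup G) [Fintype H] : CoInd H (FunG H) ≃+ FunG G where
  toFun F := fun x => CoInd.fn F x⁻¹ 1
  invFun f := CoInd.mk (fun g => fun x : H => f (g⁻¹ * x)) fun h g => funext fun x => by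
    show f (((h : G) * g)⁻¹ * x) = f (g⁻¹ * ((h⁻¹ * x : H) : G))
    rw [mul_inv_rev, mul_assoc]
    rfl
  left_inv F := CoInd.ext fun g => funext fun x => by
    show CoInd.fn F (g⁻¹ * (x : G))⁻¹ 1 = CoInd.fn F g x
    rw [mul_inv_rev, inv_inv]
    have e : CoInd.fn F ((x : G)⁻¹ * g) = x⁻¹ • CoInd.fn F g := CoInd.fn_equi F x⁻¹ g
    rw [e, smul_apply, inv_inv, mul_one]
  right_inv f := funext fun x => by
    show f ((x⁻¹)⁻¹ * ((1 : H) : G)) = f x
    rw [inv_inv, Subgroup.coe_one, mul_one]
  map_add' F F' := funext fun x => by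
    show CoInd.fn (F + F') x⁻¹ 1 = CoInd.fn F x⁻¹ 1 + CoInd.fn F' x⁻¹ 1
    rw [map_add]
    rfl

omit [Fintype G] in
/-- The identification of the regular lattice with a coinduced lattice is `G`-equivariant. -/
theorem coIndEquiv_smul (H : Subgroup G) [Fintype H] (g : G) (F : CoInd H (FunG H)) :
    coIndEquiv H (g • F) = g • coIndEquiv H F := funext fun x => by
  show CoInd.fn (g • F) x⁻¹ 1 = CoInd.fn F (g⁻¹ * x)⁻¹ 1
  rw [CoInd.fn_smul, mul_inv_rev, inv_inv]

end FunG

variable {G : Type} [Group G] [Fintype G]

theorem isStable_total_ker : IsStable G (FunG.total (G := G)).ker := fun g f hf => by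
  show FunG.total (g • f) = 0
  rw [FunG.total_smul, show FunG.total f = 0 from hf, smul_zero]

/-- The augmentation lattice. -/
def Aug (G : Type) [Group G] [Fintype G] : Type := (FunG.total (G := G)).ker

namespace Aug

instance : AddCommGroup (Aug G) := inferInstanceAs (AddCommGroup (FunG.total (G := G)).ker)

instance : DistribMulAction G (Aug G) := stableAction (isStable_total_ker (G := G))

/-- The inclusion. -/
def incl : Aug G →+ FunG G := (FunG.total (G := G)).ker.subtype

/-- The inclusion of the augmentation lattice is equivariant. -/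
theorem incl_smul (g : G) (f : Aug G) : incl (g • f) = g • incl f := rfl

/-- The inclusion of the augmentation lattice is injective. -/
theorem incl_injective : Function.Injective (incl (G := G)) := Subtype.val_injective

/-- An element of total zero comes from the augmentation lattice. -/
theorem exists_incl_eq (y : FunG G) (h : FunG.total y = 0) : ∃ x, incl x = y := ⟨⟨y, h⟩, rfl⟩

/-- Elements of the augmentation lattice have total zero. -/
theorem total_incl (x : Aug G) : FunG.total (incl x) = 0 := x.2

/-- The augmentation lattice has finite kernel and cokernel of `p`. -/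
theorem modPFinite {p : ℕ} [hp : Fact p.Prime] : ModPFinite p (Aug G) := by
  refine ⟨(FunG.modPFinite (p := p)).of_injective incl incl_injective, ?_⟩
  classical
  let c : FunG G := fun x => if x = 1 then 1 else 0
  let π : FunG G →+ Aug G := AddMonoidHom.mk'
    (fun f => ⟨f - (TrivZ.of.symm (FunG.total f)) • c, by
      rw [AddMonoidHom.mem_ker, map_sub, map_zsmul, sub_eq_zero]
      show FunG.total f = (TrivZ.of.symm (FunG.total f)) • TrivZ.of (∑ x : G, c x)
      simp only [c, Finset.sum_ite_eq', Finset.mem_univ, if_true]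
      rw [← map_zsmul, smul_eq_mul, mul_one]
      exact (TrivZ.of.apply_symm_apply _).symm⟩) fun f f' => Subtype.ext (by
      show (f + f') - TrivZ.of.symm (FunG.total (f + f')) • c =
        (f - TrivZ.of.symm (FunG.total f) • c) + (f' - TrivZ.of.symm (FunG.total f') • c)
      rw [map_add, map_add, add_smul]
      abel)
  refine (FunG.modPFinite (p := p)).of_surjective π fun x => ⟨incl x, Subtype.ext ?_⟩
  show incl x - TrivZ.of.symm (FunG.total (incl x)) • c = incl x
  rw [total_incl, map_zero, zero_smul, sub_zero]

variable {C : Type} [AddCommGroup C] [DistribMulAction G C] {u : NormCocycle G C}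

/-- The projection of a splitting module. -/
def ofSplit : Split u →+ Aug G :=
  AddMonoidHom.mk' (fun z => ⟨fun x => Split.coord x z, by
    show TrivZ.of (∑ x : G, Split.coord x z) = 0
    rw [Split.sum_coord, map_zero]⟩) fun z z' => Subtype.ext (funext fun x => map_add _ z z')

theorem ofSplit_smul (g : G) (z : Split u) : ofSplit (g • z) = g • ofSplit z :=
  Subtype.ext (funext fun x => Split.coord_smul g x z)

theorem ofSplit_surjective : Function.Surjective (ofSplit (u := u)) := fun f => by
  refine ⟨Split.mk 0 ⟨f.1, ?_⟩, Subtype.ext rfl⟩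
  exact TrivZ.of.injective (f.2.trans (map_zero TrivZ.of).symm)

theorem exists_inl_eq (z : Split u) (h : ofSplit z = 0) : ∃ c, Split.inl c = z :=
  ⟨_, (Split.eq_inl_of_coord z fun g => congrFun (congrArg Subtype.val h) g).symm⟩

theorem ofSplit_inl (c : C) : ofSplit (Split.inl (u := u) c) = 0 := Subtype.ext rfl

theorem split_modPFinite {p : ℕ} [Fact p.Prime] (hC : ModPFinite p C) :
    ModPFinite p (Split u) :=
  ModPFinite.ses Split.inl ofSplit (fun _ _ h => congrArg Split.fstHom h) exists_inl_eq
    ofSplit_surjective hC modPFinite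

end Aug

variable {p : ℕ} [hp : Fact p.Prime] {A : Type} [AddCommGroup A] [DistribMulAction G A]
  (X : Pres p G A) (hG : Nat.Coprime p (Nat.card G))

include hG

end Fermat.Agent.CFT.Euler
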