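import Fermat.Agent.CFT.Euler.Identity

/-!
The character of a unit module from a valuation map and a family of independent units.
-/

set_option autoImplicit false

noncomputable section

namespace Fermat.Agent.CFT.Euler

open Fermat.Agent.CFT

variable {p : ℕ} [hp : Fact p.Prime] {G : Type} [Group G] [Fintype G]

/-- The constant functions in a coinduced trivial lattice. -/
def constCoInd (c : Subgroup G) : TrivZ G →+ CoInd c (TrivZ c) :=
  AddMonoidHom.mk' (fun n => CoInd.mk (fun _ => TrivZ.of (TrivZ.of.symm n)) fun _ _ => rfl)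
    fun a b => CoInd.ext fun x => by
      rw [map_add CoInd.fn]
      rfl

omit [Fintype G] in
theorem fn_constCoInd (c : Subgroup G) (n : TrivZ G) (x : G) :
    CoInd.fn (constCoInd c n) x = TrivZ.of (TrivZ.of.symm n) := rfl

omit [Fintype G] in
theorem constCoInd_smul (c : Subgroup G) (g : G) (n : TrivZ G) :
    constCoInd c (g • n) = g • constCoInd c n := rfl

omit [Fintype G] in
/-- The constants embed into the coinduced trivial lattice. -/
theorem constCoInd_injective (c : Subgroup G) : Function.Injective (constCoInd c) := fun a b h => by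
  have h1 : TrivZ.of (G := c) (TrivZ.of.symm a) = TrivZ.of (TrivZ.of.symm b) :=
    congrFun (congrArg CoInd.fn h) 1
  exact TrivZ.of.symm.injective (TrivZ.of.injective h1)

omit hp in
/-- A subgroup containing, up to finite index, the image of a group with finite cokernel of
multiplication by `p` has the same property. -/
private theorem modPFinite_ker {T U V : Type} [AddCommGroup T] [AddCommGroup U] [AddCommGroup V]
    (hT : ModPFinite p T) (hU : ModPFinite p U) (ord : U →+ V) (Φ : T →+ U)
    (hΦord : ∀ F, ord (Φ F) = 0) (hΦidx : Φ.range.relIndex ord.ker ≠ 0) :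
    ModPFinite p ord.ker := by
  refine ⟨hU.of_injective ord.ker.subtype Subtype.val_injective, ?_⟩
  let ψ : T →+ ord.ker := Φ.codRestrict ord.ker hΦord
  let μ := (nsmulAddMonoidHom p : ord.ker →+ ord.ker)
  have h1 : ψ.range = Φ.range.addSubgroupOf ord.ker := by
    ext x
    exact ⟨fun ⟨y, hy⟩ => ⟨y, congrArg Subtype.val hy⟩, fun ⟨y, hy⟩ => ⟨y, Subtype.ext hy⟩⟩
  -- the image of `ψ` has finite index
  have h2 : (μ.range ⊔ ψ.range).index ≠ 0 := fun h0 => hΦidx (by
    rw [AddSubgroup.relIndex, ← h1]
    exact Nat.eq_zero_of_zero_dvd (h0 ▸ AddSubgroup.index_dvd_of_le le_sup_right))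
  -- and is itself finite modulo `p`, being a quotient of `T`
  have h3 : μ.range.relIndex ψ.range ≠ 0 := by
    intro h0
    apply hT.quot
    have hle : ((nsmulAddMonoidHom p : T →+ _).range).map ψ ≤ μ.range := by
      rintro _ ⟨_, ⟨a, rfl⟩, rfl⟩
      exact ⟨ψ a, (map_nsmul ψ p a).symm⟩
    have h := AddSubgroup.relIndex_dvd_of_le_left (L := ψ.range) hle
    rw [h0, zero_dvd_iff, AddMonoidHom.range_eq_map ψ, AddSubgroup.relIndex_map_map, top_sup_eq,
      AddSubgroup.relIndex_top_right] at h
    rw [AddSubgroup.index_eq_zero_iff_infinite] at h ⊢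
    exact h.of_surjective _ (QuotientAddGroup.map_surjective_of_surjective _ _
      (AddMonoidHom.id _) (QuotientAddGroup.mk'_surjective _) le_sup_left)
  rw [← AddSubgroup.relIndex_mul_index (le_sup_left : μ.range ≤ μ.range ⊔ ψ.range),
    AddSubgroup.relIndex_sup_left]
  exact mul_ne_zero h3 h2

/-- The character of `U` from an ord map with finite coindex whose kernel is, up to finite index,
the regular lattice of `G/c` modulo constants. -/
theorem unitChar_of_maps {ι : Type} [Fintype ι] (H : ι → Subgroup G) [∀ i, Fintype (H i)]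
    (c : Subgroup G) {U : Type} [AddCommGroup U] [DistribMulAction G U]
    (hUfin : ModPFinite p U) (ord : U →+ ∀ i, CoInd (H i) (TrivZ (H i)))
    (hord : ∀ (g : G) (x : U), ord (g • x) = g • ord x) (hordidx : ord.range.index ≠ 0)
    (Φ : CoInd c (TrivZ c) →+ U) (hΦ : ∀ (g : G) (F : CoInd c (TrivZ c)), Φ (g • F) = g • Φ F)
    (hΦker : Φ.ker = (constCoInd c).range) (hΦord : ∀ F, ord (Φ F) = 0)
    (hΦidx : Φ.range.relIndex ord.ker ≠ 0) :
    UnitChar p H c U := by
  intro C _ hC A _ _ X
  have good : ∀ (M : Type) [AddCommGroup M] [DistribMulAction C M], Good p C M := fun M _ _ =>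
    good_of_coprime p C M hC
  have hTC : ModPFinite p (CoInd c (TrivZ c)) := CoInd.modPFinite TrivZ.modPFinite
  have hP : ModPFinite p (∀ i, CoInd (H i) (TrivZ (H i))) :=
    ModPFinite.pi fun i => CoInd.modPFinite TrivZ.modPFinite
  have sker : IsStable C ord.ker := fun g x hx => by
    show ord ((g : G) • x) = 0
    rw [hord, show ord x = 0 from hx, smul_zero]
  have sran : IsStable C ord.range := by
    rintro g _ ⟨x, rfl⟩
    exact ⟨(g : G) • x, hord g x⟩
  let := stableAction sker
  let := stableAction sran
  have hker : ModPFinite p ord.ker := modPFinite_ker hTC hUfin ord Φ hΦord hΦidx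
  have hran : ModPFinite p ord.range :=
    ⟨hP.of_injective ord.range.subtype Subtype.val_injective,
      hUfin.of_surjective ord.rangeRestrict ord.rangeRestrict_surjective⟩
  -- the index is additive along `0 → ord.ker → U → ord.range → 0`
  have e1 : X.index U = X.index ord.ker + X.index ord.range :=
    X.index_add ord.ker.subtype ord.rangeRestrict (fun _ _ => rfl)
      (fun g x => Subtype.ext (hord (g : G) x)) Subtype.val_injective
      (fun y hy => ⟨⟨y, congrArg Subtype.val hy⟩, rfl⟩) (fun x => Subtype.ext x.2)
      ord.rangeRestrict_surjective (good _) hker hran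
  -- `ord.range` has finite index in the product of the coinduced lattices
  have e2 : X.index ord.range = ∑ i, X.index (CoInd (H i) (TrivZ (H i))) := by
    have : Finite (ord.range.subtype).ker := by
      have : Subsingleton (ord.range.subtype).ker :=
        ⟨fun x y => Subtype.ext (Subtype.ext (x.2.trans y.2.symm))⟩
      infer_instance
    rw [X.index_eq_of_finiteIndex hC ord.range.subtype (fun _ _ => rfl)
      (by rw [AddSubgroup.range_subtype]; exact hordidx) hran hP,
      X.index_pi fun i => CoInd.modPFinite TrivZ.modPFinite]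
  have sΦ : IsStable C Φ.range := by
    rintro g _ ⟨x, rfl⟩
    exact ⟨(g : G) • x, hΦ g x⟩
  let := stableAction sΦ
  have hΦran : ModPFinite p Φ.range :=
    ⟨hUfin.of_injective Φ.range.subtype Subtype.val_injective,
      hTC.of_surjective Φ.rangeRestrict Φ.rangeRestrict_surjective⟩
  -- and along `0 → ℤ → Ind_c ℤ → Φ.range → 0`
  have e3 : X.index (CoInd c (TrivZ c)) = X.index (TrivZ G) + X.index Φ.range :=
    X.index_add (constCoInd c) Φ.rangeRestrict (fun g x => constCoInd_smul c (g : G) x)
      (fun g x => Subtype.ext (hΦ (g : G) x)) (constCoInd_injective c)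
      (fun y hy => by
        have h : y ∈ Φ.ker := congrArg Subtype.val hy
        rw [hΦker] at h
        exact h)
      (fun x => Subtype.ext (by
        have h : constCoInd c x ∈ Φ.ker := by rw [hΦker]; exact ⟨x, rfl⟩
        exact h))
      Φ.rangeRestrict_surjective (good _) TrivZ.modPFinite hΦran
  -- `Φ.range` has finite index in `ord.ker`
  let incl : Φ.range →+ ord.ker := AddSubgroup.inclusion (by
    rintro _ ⟨F, rfl⟩
    exact hΦord F)
  have : Finite incl.ker := by
    have : Subsingleton incl.ker :=
      ⟨fun x y => Subtype.ext (AddSubgroup.inclusion_injective _ (x.2.trans y.2.symm))⟩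
    infer_instance
  have hidx : incl.range.index ≠ 0 := by
    rw [show incl.range = Φ.range.addSubgroupOf ord.ker by
      ext x
      exact ⟨fun ⟨y, hy⟩ => hy ▸ y.2, fun h => ⟨⟨x.1, h⟩, Subtype.ext rfl⟩⟩]
    exact hΦidx
  have e4 : X.index Φ.range = X.index ord.ker :=
    X.index_eq_of_finiteIndex hC incl (fun _ _ => rfl) hidx hΦran hker
  omega

end Fermat.Agent.CFT.Euler
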